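import Fermat.Agent.ModPoly.Subst

/-!
# Descent of roots through a totally ramified place
-/

set_option autoImplicit false
set_option linter.unusedSectionVars false
set_option linter.style.haveILetI false

noncomputable section

namespace Fermat.Agent.Red

open ModularCurve Fermat.Agent.ModPoly Module Polynomial

variable {K : Type*} [Field K]

theorem mem_range_of_integral [IsAlgClosed K] {Ω : Type*} [Field Ω] [Algebra K Ω] {w : Ω}
    (hw : IsIntegral K w) : ∃ a : K, algebraMap K Ω a = w :=
  minpoly.mem_range_of_degree_eq_one K w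
    (IsAlgClosed.degree_eq_one_of_irreducible K (minpoly.irreducible hw))

/-- A Laurent series supported on multiples of `e` is a series in `q ^ e`. -/
theorem exists_qExpand {e : ℕ} [NeZero e] {x : LaurentSeries K}
    (hx : ∀ n : ℤ, ¬ (e : ℤ) ∣ n → x.coeff n = 0) : ∃ y, qExpand K e y = x := by
  classical
  have he : (0 : ℤ) < e := by exact_mod_cast NeZero.pos e
  refine ⟨⟨fun n => x.coeff (e * n), ?_⟩, ?_⟩
  · have : (Function.support fun n : ℤ => x.coeff (e * n)) =
        (fun n : ℤ => (e : ℤ) * n) ⁻¹' (Function.support x.coeff) := rfl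
    rw [this]
    have h1 := x.isPWO_support
    have h2 : (Function.support x.coeff).IsWF := h1.isWF
    rw [Set.isPWO_iff_isWF]
    rw [Set.isWF_iff_no_descending_seq] at h2 ⊢
    intro f hf hmem
    exact h2 (fun n => (e : ℤ) * f n) (fun m n hmn => mul_lt_mul_of_pos_left (hf hmn) he)
      (fun n => hmem n)
  · ext n
    by_cases h : (e : ℤ) ∣ n
    · obtain ⟨m, rfl⟩ := h
      rw [qExpand_coeff_mul]
    · rw [qExpand_coeff_of_not_dvd e _ h, hx n h]

theorem mem_range_qExpand_of_pow [IsAlgClosed K] {e m : ℕ} [NeZero e] (he : (e : K) ≠ 0)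
    (hm : m ≠ 0) {x : LaurentSeries K} {g : LaurentSeries K} (hx : x ^ m = qExpand K e g)
    (hord : ((m : ℕ) : ℤ) ∣ g.order) : ∃ y, qExpand K e y = x := by
  rcases eq_or_ne x 0 with rfl | hx0
  · exact ⟨0, map_zero _⟩
  haveI : NeZero (e : K) := ⟨he⟩
  obtain ⟨ζ, hζ⟩ := HasEnoughRootsOfUnity.exists_primitiveRoot K e
  obtain ⟨u, hu⟩ : ∃ u : Kˣ, (u : K) = ζ := ⟨Units.mk0 ζ (hζ.ne_zero (NeZero.ne e)), rfl⟩
  have huE : u ^ e = 1 := by
    apply Units.ext
    push_cast
    rw [hu, hζ.pow_eq_one]
  -- twist
  have hfix : twist u (qExpand K e g) = qExpand K e g := by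
    ext n
    rw [twist_coeff]
    by_cases h : (e : ℤ) ∣ n
    · obtain ⟨l, rfl⟩ := h
      have : u ^ ((e : ℤ) * l) = 1 := by
        rw [zpow_mul, zpow_natCast, huE, one_zpow]
      rw [this]; simp
    · rw [qExpand_coeff_of_not_dvd e _ h, mul_zero]
  have htx : (twist u x) ^ m = x ^ m := by rw [← map_pow, hx, hfix]
  have hw : (twist u x / x) ^ m = 1 := by
    rw [div_pow, htx, div_self (pow_ne_zero _ hx0)]
  obtain ⟨ω, hω⟩ := mem_range_of_integral (K := K) (w := twist u x / x) (by
    refine ⟨X ^ m - C 1, monic_X_pow_sub_C 1 hm, ?_⟩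
    simp [hw])
  have h1 : twist u x = algebraMap K (LaurentSeries K) ω * x := by
    rw [hω, div_mul_cancel₀ _ hx0]
  have hcoef : ∀ n, ((u ^ n : Kˣ) : K) * x.coeff n = ω * x.coeff n := by
    intro n
    rw [← twist_coeff, h1]
    rw [algebraMap_laurentSeries_eq_single, HahnSeries.coeff_single_zero_mul]
  -- order of `x` is a multiple of `e`
  have hordx : (m : ℤ) * x.order = e * g.order := by
    have := congrArg HahnSeries.order hx
    rw [HahnSeries.order_pow, order_qExpand] at this
    simpa using this
  obtain ⟨l, hl⟩ := hord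
  have hordx' : x.order = e * l := by
    have hm' : (m : ℤ) ≠ 0 := by exact_mod_cast hm
    apply mul_left_cancel₀ hm'
    rw [hordx, hl]; ring
  have hω1 : ω = 1 := by
    have h2 := hcoef x.order
    have h3 : x.coeff x.order ≠ 0 := fun h => hx0 (HahnSeries.coeff_order_eq_zero.mp h)
    have h4 := mul_right_cancel₀ h3 h2
    rw [← h4, hordx', zpow_mul, zpow_natCast, huE, one_zpow]; simp
  apply exists_qExpand
  intro n hn
  have h2 := hcoef n
  rw [hω1, one_mul] at h2
  by_contra h3
  have h4 : ((u ^ n : Kˣ) : K) = 1 := by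
    apply mul_right_cancel₀ h3
    rw [h2, one_mul]
  have h5 : u ^ n = 1 := Units.ext h4
  apply hn
  have h6 : IsPrimitiveRoot u e := by
    rw [← hu] at hζ
    exact (IsPrimitiveRoot.coe_units_iff).1 hζ
  exact (h6.zpow_eq_one_iff_dvd n).1 h5

/-- **Descent lemma**. -/
theorem descent [IsAlgClosed K] {F F' : Type*} [Field F] [Field F'] [Algebra F F']
    [FiniteDimensional F F'] (φ : F' →+* LaurentSeries K) {e : ℕ} [NeZero e] (he : (e : K) ≠ 0)
    (hdeg : finrank F F' < 2 * e)
    (hF : ∀ y : F, ∃ g, qExpand K e g = φ (algebraMap F F' y))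
    (hz : ∃ z : F', (φ z).order = 1) {m : ℕ} (hm : m ≠ 0) {x : F'} {f : F}
    (hx : x ^ m = algebraMap F F' f)
    (hord : ∀ g, qExpand K e g = φ (algebraMap F F' f) → (m : ℤ) ∣ g.order) :
    ∃ y : F, algebraMap F F' y = x := by
  classical
  obtain ⟨g, hg⟩ := hF f
  obtain ⟨y0, hy0⟩ := mem_range_qExpand_of_pow he hm (x := φ x) (g := g)
    (by rw [← map_pow, hx, hg]) (hord g hg)
  -- elements of `E = F(x)` land in series in `q ^ e`
  let E : IntermediateField F F' := IntermediateField.adjoin F {x}
  let Λ : Subfield (LaurentSeries K) := (qExpand K e).fieldRange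
  let ΛF : Subfield F' := Λ.comap φ
  have hE : ∀ y : E, φ (y : F') ∈ Λ := by
    let E' : IntermediateField F F' :=
      { ΛF with
        algebraMap_mem' := fun y => by
          obtain ⟨g, hg⟩ := hF y
          exact ⟨g, hg⟩ }
    have hle : E ≤ E' := by
      rw [IntermediateField.adjoin_simple_le_iff]
      exact ⟨y0, hy0⟩
    intro y
    exact hle y.2
  obtain ⟨z, hz⟩ := hz
  have hz0 : z ≠ 0 := by
    rintro rfl
    rw [map_zero, HahnSeries.order_zero] at hz
    omega
  -- powers of `z` are independent over `E`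
  have hli : LinearIndependent E (fun i : Fin e => z ^ (i : ℕ)) := by
    rw [Fintype.linearIndependent_iff]
    intro c hc
    by_contra hcon
    push Not at hcon
    -- valuations of nonzero terms are distinct
    let a : Fin e → LaurentSeries K := fun i => φ ((c i : F') * z ^ (i : ℕ))
    have ha : ∑ i, a i = 0 := by
      have := congrArg φ hc
      rw [map_sum, map_zero] at this
      rw [← this]
      refine Finset.sum_congr rfl fun i _ => ?_
      rfl
    have hane : ∀ i, c i ≠ 0 → a i ≠ 0 := by
      intro i hi h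
      have : ((c i : F') * z ^ (i : ℕ)) = 0 := by
        apply φ.injective
        rw [map_zero]; exact h
      rcases mul_eq_zero.1 this with h1 | h1
      · exact hi (Subtype.ext h1)
      · exact pow_ne_zero _ hz0 h1
    have hao : ∀ i, c i ≠ 0 → ∃ l : ℤ, (a i).order = e * l + i := by
      intro i hi
      obtain ⟨g, hg⟩ := hE (c i)
      refine ⟨g.order, ?_⟩
      have h0 : φ (c i : F') ≠ 0 := by
        intro h
        exact hi (Subtype.ext (φ.injective (by rw [h, ← map_zero φ]; rfl)))
      have h1 : φ z ≠ 0 := by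
        intro h
        exact hz0 (φ.injective (by rw [h, map_zero]))
      simp only [a]
      rw [map_mul, map_pow, HahnSeries.order_mul h0 (pow_ne_zero _ h1), HahnSeries.order_pow, hz,
        ← hg, order_qExpand]
      simp
    -- pick the term with smallest order
    let S := Finset.univ.filter fun i => c i ≠ 0
    have hS : S.Nonempty := by
      obtain ⟨i, hi⟩ := hcon
      exact ⟨i, by simpa [S] using hi⟩
    obtain ⟨i0, hi0, hmin⟩ := S.exists_min_image (fun i => (a i).order) hS
    have hi0' : c i0 ≠ 0 := by simpa [S] using hi0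
    have hcoef : (∑ i, a i).coeff (a i0).order = (a i0).coeff (a i0).order := by
      rw [HahnSeries.coeff_sum, Finset.sum_eq_single i0]
      · intro j _ hj
        by_cases hcj : c j = 0
        · have : a j = 0 := by simp [a, hcj]
          rw [this]; rfl
        · apply HahnSeries.coeff_eq_zero_of_lt_order
          have h1 := hmin j (by simpa [S] using hcj)
          refine lt_of_le_of_ne h1 ?_
          intro h2
          obtain ⟨l, hl⟩ := hao j hcj
          obtain ⟨l', hl'⟩ := hao i0 hi0'
          rw [hl, hl'] at h2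
          apply hj
          apply Fin.ext
          have h3 : ((i0 : ℕ) : ℤ) - (j : ℕ) = e * (l - l') := by linarith
          have h4 : (e : ℤ) ∣ ((i0 : ℕ) : ℤ) - (j : ℕ) := ⟨_, h3⟩
          have h5 : |((i0 : ℕ) : ℤ) - (j : ℕ)| < e := by
            rw [abs_lt]
            have := i0.2
            have := j.2
            constructor <;> omega
          have h6 := Int.eq_zero_of_abs_lt_dvd h4 h5
          omega
      · intro h; exact absurd (Finset.mem_univ _) h
    rw [ha] at hcoef
    have : (a i0).coeff (a i0).order ≠ 0 := fun h => hane i0 hi0' (HahnSeries.coeff_order_eq_zero.mp h)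
    exact this hcoef.symm
  have h1 : e ≤ finrank E F' := by
    have := hli.fintype_card_le_finrank
    simpa using this
  have h2 : finrank F E * finrank E F' = finrank F F' := Module.finrank_mul_finrank F E F'
  have h3 : finrank F E = 1 := by
    have hpos : 0 < finrank F E := Module.finrank_pos
    by_contra hne
    have h4 : 2 ≤ finrank F E := by omega
    have h5 : 2 * e ≤ finrank F E * finrank E F' := Nat.mul_le_mul h4 h1
    omega
  have h4 : E = ⊥ := IntermediateField.finrank_eq_one_iff.1 h3
  have h5 : x ∈ E := IntermediateField.mem_adjoin_simple_self F x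
  rw [h4, IntermediateField.mem_bot] at h5
  exact h5

end Fermat.Agent.Red
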