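import Fermat.Agent.Curve.Embed

/-!
# Integral elements and places
-/

set_option autoImplicit false
set_option linter.unusedSectionVars false
set_option linter.style.haveILetI false

namespace Fermat.Agent.Red

open AlgebraicCurve Polynomial IntermediateField IsDedekindDomain Fermat.Agent.Curve

variable {K F : Type*} [Field K] [Field F] [Algebra K F]

theorem aeval_mem_place (v : Place K F) {t : F} (ht : 0 ≤ v.ord t) (p : K[X]) :
    aeval t p ∈ v.toValuationSubring := by
  rw [aeval_eq_sum_range]
  refine sum_mem fun i _ => ?_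
  rw [Algebra.smul_def]
  exact mul_mem (v.algebraMap_mem' _) (pow_mem (mem_of_ord_nonneg v ht) i)

theorem ord_nonneg_of_isIntegralElem (v : Place K F) {t x : F} (ht : 0 ≤ v.ord t)
    (hx : (aeval t : K[X] →ₐ[K] F).toRingHom.IsIntegralElem x) : 0 ≤ v.ord x := by
  apply ord_nonneg_of_mem
  obtain ⟨P, hP, hPx⟩ := hx
  let φ : K[X] →+* v.toValuationSubring :=
    (aeval t : K[X] →ₐ[K] F).toRingHom.codRestrict v.toValuationSubring.toSubring
      (aeval_mem_place v ht)
  have hint : IsIntegral v.toValuationSubring x := by
    refine ⟨P.map φ, hP.map φ, ?_⟩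
    rw [eval₂_map]
    exact hPx
  obtain ⟨y, hy⟩ := IsIntegrallyClosed.isIntegral_iff.1 hint
  rw [← hy]; exact y.2

theorem isIntegralElem_iff (t : F) (htr : Transcendental K t) [FiniteDimensional K⟮t⟯ F]
    [Algebra.IsSeparable K⟮t⟯ F] (x : F) :
    (aeval t : K[X] →ₐ[K] F).toRingHom.IsIntegralElem x ↔
      ∀ v : Place K F, 0 ≤ v.ord t → 0 ≤ v.ord x := by
  constructor
  · exact fun h v hv => ord_nonneg_of_isIntegralElem v hv h
  intro h
  let g : K⟮t⟯ := AdjoinSimple.gen K t
  letI : Algebra K[X] K⟮t⟯ := (aeval g).toRingHom.toAlgebra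
  letI : Algebra K[X] F := (aeval t).toRingHom.toAlgebra
  haveI : IsScalarTower K[X] K⟮t⟯ F := by
    refine IsScalarTower.of_algebraMap_eq fun p => ?_
    change aeval t p = algebraMap K⟮t⟯ F (aeval g p)
    rw [← aeval_algebraMap_apply]
    rfl
  haveI : IsScalarTower K K[X] F := by
    refine IsScalarTower.of_algebraMap_eq fun a => ?_
    change algebraMap K F a = aeval t (algebraMap K K[X] a)
    simp
  haveI : IsFractionRing K[X] K⟮t⟯ := by
    let e : RatFunc K ≃ₐ[K[X]] K⟮t⟯ :=
      AlgEquiv.ofRingEquiv (f := (RatFunc.algEquivOfTranscendental t htr).toRingEquiv)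
        (fun p => RatFunc.algEquivOfTranscendental_algebraMap t htr p)
    exact IsLocalization.isLocalization_of_algEquiv (nonZeroDivisors K[X]) e
  let B := integralClosure K[X] F
  haveI : IsFractionRing B F := integralClosure.isFractionRing_of_finite_extension K⟮t⟯ F
  haveI : IsDedekindDomain B := integralClosure.isDedekindDomain K[X] K⟮t⟯ F
  letI : Algebra K B := ((algebraMap K[X] B).comp (algebraMap K K[X])).toAlgebra
  haveI : IsScalarTower K B F := by
    refine IsScalarTower.of_algebraMap_eq fun a => ?_
    change _ = algebraMap B F (algebraMap K[X] B (algebraMap K K[X] a))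
    rw [← IsScalarTower.algebraMap_apply K[X] B F, ← IsScalarTower.algebraMap_apply K K[X] F]
  have hmem : x ∈ (algebraMap B F).range := by
    apply HeightOneSpectrum.mem_integers_of_valuation_le_one
    intro w
    let v := Place.ofHeightOneSpectrum (K := K) (F := F) w
    have hv : v.toValuationSubring = (w.valuation F).valuationSubring :=
      Place.ofHeightOneSpectrum_toValuationSubring w
    have h1 : 0 ≤ v.ord t := by
      apply ord_nonneg_of_mem
      rw [hv, Valuation.mem_valuationSubring_iff]
      have : t = algebraMap B F (algebraMap K[X] B X) := by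
        rw [← IsScalarTower.algebraMap_apply]
        change t = aeval t X
        simp
      rw [this]
      exact w.valuation_le_one _
    have h2 := mem_of_ord_nonneg v (h v h1)
    rwa [hv, Valuation.mem_valuationSubring_iff] at h2
  obtain ⟨b, rfl⟩ := hmem
  exact b.2

end Fermat.Agent.Red
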