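import Fermat.Agent.Red.Inv
import Fermat.Agent.Red.PlaceInt
import Fermat.Prelude.Def_AlgebraicCurve_Repartitions

/-!
# Reduction of Riemann-Roch spaces, comparison of genera, concrete rigidity
-/

set_option autoImplicit false
set_option linter.unusedSectionVars false
set_option linter.style.haveILetI false

namespace Fermat.Agent.Red

open Module Polynomial IntermediateField AlgebraicCurve Fermat.Agent.Curve

/-- Riemann's theorem holds with genus `g`. -/
def RiemannAt (K F : Type*) [Field K] [Field F] [Algebra K F] (g : ℤ) : Prop :=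
  ∃ c : ℤ, ∀ D : Divisor K F, c ≤ Divisor.degree D →
    Module.Finite K (riemannRochSpace D) ∧
      (Module.finrank K (riemannRochSpace D) : ℤ) = Divisor.degree D + 1 - g

/-- `Z` is the divisor of zeros and `P` the divisor of poles of `t`, both of degree `d > 0`. -/
structure PoleZero {K F : Type*} [Field K] [Field F] [Algebra K F] (t : F) (P Z : Divisor K F)
    (d : ℕ) : Prop where
  hP : ∀ v, P v = max (-(v.ord t)) 0
  hZ : ∀ v, Z v = max (v.ord t) 0
  dP : Divisor.degree P = d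
  dZ : Divisor.degree Z = d
  pos : 0 < d

namespace PoleZero

variable {K F : Type*} [Field K] [Field F] [Algebra K F] {t : F} {P Z : Divisor K F} {d : ℕ}
  (h : PoleZero t P Z d)

include h in
theorem degree (a b : ℕ) (D : Divisor K F) :
    Divisor.degree (a • P + b • Z + D) = (a + b) * d + Divisor.degree D := by
  rw [map_add, map_add, map_nsmul, map_nsmul, h.dP, h.dZ]
  simp only [nsmul_eq_mul]
  ring

end PoleZero

variable {A K F k R : Type*} [CommRing A] [IsDomain A] [ValuationRing A]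
  [Field K] [Algebra A K] [IsFractionRing A K] [Field F] [Algebra K F] [Algebra A F]
  [IsScalarTower A K F] [Field k] [Algebra A k] [Field R] [Algebra k R] [Algebra A R]
  [IsScalarTower A k R]

/-- the space `L(a P + b Z + D)` -/
noncomputable abbrev LL {K F : Type*} [Field K] [Field F] [Algebra K F] (P Z D : Divisor K F) (a b : ℕ) :
    Submodule K F := riemannRochSpace (a • P + b • Z + D)

theorem mem_LL {K F : Type*} [Field K] [Field F] [Algebra K F] {P Z D : Divisor K F} {a b : ℕ}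
    {x : F} : x ∈ LL P Z D a b ↔ ∀ v : Place K F, x = 0 ∨ -(a * P v + b * Z v + D v) ≤ v.ord x := by
  rw [LL, mem_riemannRochSpace_iff]
  simp

section

variable {K F : Type*} [Field K] [Field F] [Algebra K F] {t : F} {P Z : Divisor K F} {d : ℕ}

theorem LL_mono (h : PoleZero t P Z d) (D : Divisor K F) {a b a' b' : ℕ} (ha : a ≤ a') (hb : b ≤ b') :
    LL P Z D a b ≤ LL P Z D a' b' := by
  intro x hx
  rw [mem_LL] at hx ⊢
  intro v
  refine (hx v).imp_right fun h1 => le_trans ?_ h1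
  have h2 : 0 ≤ P v := by rw [h.hP]; exact le_max_right _ _
  have h3 : 0 ≤ Z v := by rw [h.hZ]; exact le_max_right _ _
  have h4 : (a : ℤ) * P v ≤ a' * P v := mul_le_mul_of_nonneg_right (by exact_mod_cast ha) h2
  have h5 : (b : ℤ) * Z v ≤ b' * Z v := mul_le_mul_of_nonneg_right (by exact_mod_cast hb) h3
  linarith

theorem LL_mul {D D' : Divisor K F} {a b a' b' : ℕ} {x y : F} (hx : x ∈ LL P Z D a b)
    (hy : y ∈ LL P Z D' a' b') : x * y ∈ LL P Z (D + D') (a + a') (b + b') := by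
  rw [mem_LL] at hx hy ⊢
  intro v
  rcases eq_or_ne x 0 with rfl | hx0
  · left; rw [zero_mul]
  rcases eq_or_ne y 0 with rfl | hy0
  · left; rw [mul_zero]
  right
  have h1 := (hx v).resolve_left hx0
  have h2 := (hy v).resolve_left hy0
  rw [v.ord_mul hx0 hy0]
  have : (D + D') v = D v + D' v := rfl
  rw [this]
  push_cast
  linarith

/-- `L(aP+bZ)` in terms of integrality -/
theorem mem_LL_iff_integral (h : PoleZero t P Z d) (htr : Transcendental K t)
    [FiniteDimensional K⟮t⟯ F] [Algebra.IsSeparable K⟮t⟯ F]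
    [FiniteDimensional K⟮t⁻¹⟯ F] [Algebra.IsSeparable K⟮t⁻¹⟯ F] (htr' : Transcendental K t⁻¹)
    (a b : ℕ) (x : F) :
    x ∈ LL P Z 0 a b ↔ (aeval t : K[X] →ₐ[K] F).toRingHom.IsIntegralElem (t ^ b * x) ∧
      (aeval t⁻¹ : K[X] →ₐ[K] F).toRingHom.IsIntegralElem (t⁻¹ ^ a * x) := by
  have ht0 : t ≠ 0 := by
    rintro rfl
    exact htr (isAlgebraic_zero)
  rcases eq_or_ne x 0 with rfl | hx0
  · rw [mul_zero, mul_zero]
    exact ⟨fun _ => ⟨RingHom.isIntegralElem_zero _, RingHom.isIntegralElem_zero _⟩,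
      fun _ => zero_mem _⟩
  rw [mem_LL, isIntegralElem_iff t htr, isIntegralElem_iff t⁻¹ htr']
  have hinv : ∀ v : Place K F, v.ord t⁻¹ = - v.ord t := by
    intro v
    have := v.ord_mul ht0 (inv_ne_zero ht0)
    rw [mul_inv_cancel₀ ht0, v.ord_one] at this
    linarith
  have e1 : ∀ v : Place K F, v.ord (t ^ b * x) = b * v.ord t + v.ord x := by
    intro v
    rw [v.ord_mul (pow_ne_zero _ ht0) hx0, ord_pow]
  have e2 : ∀ v : Place K F, v.ord (t⁻¹ ^ a * x) = -(a * v.ord t) + v.ord x := by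
    intro v
    rw [v.ord_mul (pow_ne_zero _ (inv_ne_zero ht0)) hx0, ord_pow, hinv]
    ring
  constructor
  · intro hx
    constructor
    · intro v hv
      have h1 := (hx v).resolve_left hx0
      rw [h.hP, h.hZ, max_eq_right (by linarith), max_eq_left hv] at h1
      rw [e1]
      simp only [mul_zero, zero_add, Finsupp.coe_zero, Pi.zero_apply, add_zero] at h1
      linarith
    · intro v hv
      rw [hinv] at hv
      have h1 := (hx v).resolve_left hx0
      rw [h.hP, h.hZ, max_eq_left hv, max_eq_right (by linarith)] at h1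
      rw [e2]
      simp only [mul_zero, add_zero, Finsupp.coe_zero, Pi.zero_apply] at h1
      linarith
  · rintro ⟨h1, h2⟩ v
    right
    rw [h.hP, h.hZ]
    simp only [Finsupp.coe_zero, Pi.zero_apply, add_zero]
    rcases le_total 0 (v.ord t) with hv | hv
    · have h3 := h1 v hv
      rw [max_eq_right (by linarith), max_eq_left hv]
      rw [e1] at h3
      linarith
    · have h3 := h2 v (by rw [hinv]; linarith)
      rw [max_eq_left (by linarith), max_eq_right hv]
      rw [e2] at h3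
      linarith

end

/-- The hypotheses on the special and generic fibres. -/
structure FibreHyp {ι : Type*} [Fintype ι] (G : GaussData A K F k R ι)
    (P Z : Divisor K F) (Pk Zk : Divisor k R) (d : ℕ) (g : ℤ) (gk : ℤ) : Prop where
  hk : Function.Surjective (algebraMap A k)
  hspan : ∀ x : F, ∃ q : K[X], q ≠ 0 ∧ ∃ P : ι → K[X], aeval G.t q * x = G.comb P
  tr : Transcendental K G.t
  trk : Transcendental k (G.π ⟨G.t, G.ht⟩)
  fin : FiniteDimensional K⟮G.t⟯ F
  sep : Algebra.IsSeparable K⟮G.t⟯ F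
  fink : FiniteDimensional k⟮G.π ⟨G.t, G.ht⟩⟯ R
  sepk : Algebra.IsSeparable k⟮G.π ⟨G.t, G.ht⟩⟯ R
  pz : PoleZero G.t P Z d
  pzk : PoleZero (G.π ⟨G.t, G.ht⟩) Pk Zk d
  rr : RiemannAt K F g
  rrk : RiemannAt k R gk

theorem adjoin_inv {K F : Type*} [Field K] [Field F] [Algebra K F] (t : F) : K⟮t⁻¹⟯ = K⟮t⟯ := by
  apply le_antisymm
  · rw [adjoin_simple_le_iff]
    exact inv_mem (mem_adjoin_simple_self K t)
  · rw [adjoin_simple_le_iff]
    have := inv_mem (mem_adjoin_simple_self K t⁻¹)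
    rwa [inv_inv] at this

theorem transcendental_inv {K F : Type*} [Field K] [Field F] [Algebra K F] {t : F}
    (h : Transcendental K t) : Transcendental K t⁻¹ := by
  intro h1
  apply h
  have := h1.inv
  rwa [inv_inv] at this

namespace FibreHyp

variable {ι : Type*} [Fintype ι] {G : GaussData A K F k R ι}
    {P Z : Divisor K F} {Pk Zk : Divisor k R} {d : ℕ} {g : ℤ} {gk : ℤ}
    (H : FibreHyp G P Z Pk Zk d g gk)

/-- the attached reduction model -/
noncomputable def M (H : FibreHyp G P Z Pk Zk d g gk) : RedModel A K F k R :=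
  G.toRedModel H.hk H.hspan

theorem mem_M {x : F} : x ∈ H.M.W ↔ x ∈ G.W := Iff.rfl

include H in
theorem mem_LL_iff (a b : ℕ) (x : F) :
    x ∈ LL P Z 0 a b ↔ (aeval G.t : K[X] →ₐ[K] F).toRingHom.IsIntegralElem (G.t ^ b * x) ∧
      (aeval G.t⁻¹ : K[X] →ₐ[K] F).toRingHom.IsIntegralElem (G.t⁻¹ ^ a * x) := by
  haveI := H.fin
  haveI := H.sep
  haveI : FiniteDimensional K⟮G.t⁻¹⟯ F := by rw [adjoin_inv]; exact H.fin
  haveI : Algebra.IsSeparable K⟮G.t⁻¹⟯ F := by rw [adjoin_inv]; exact H.sep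
  exact mem_LL_iff_integral H.pz H.tr (transcendental_inv H.tr) a b x

include H in
theorem mem_LLk_iff (a b : ℕ) (x : R) :
    x ∈ LL Pk Zk 0 a b ↔ (aeval (G.π ⟨G.t, G.ht⟩) : k[X] →ₐ[k] R).toRingHom.IsIntegralElem
        ((G.π ⟨G.t, G.ht⟩) ^ b * x) ∧
      (aeval (G.π ⟨G.t, G.ht⟩)⁻¹ : k[X] →ₐ[k] R).toRingHom.IsIntegralElem
        ((G.π ⟨G.t, G.ht⟩)⁻¹ ^ a * x) := by
  haveI := H.fink
  haveI := H.sepk
  haveI : FiniteDimensional k⟮(G.π ⟨G.t, G.ht⟩)⁻¹⟯ R := by rw [adjoin_inv]; exact H.fink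
  haveI : Algebra.IsSeparable k⟮(G.π ⟨G.t, G.ht⟩)⁻¹⟯ R := by rw [adjoin_inv]; exact H.sepk
  exact mem_LL_iff_integral H.pzk H.trk (transcendental_inv H.trk) a b x

theorem π_inv_t_eq {ι : Type*} [Fintype ι] (G : GaussData A K F k R ι) :
    G.π ⟨G.t⁻¹, G.inv_t_mem⟩ = (G.π ⟨G.t, G.ht⟩)⁻¹ :=
  eq_inv_of_mul_eq_one_right G.π_inv_t

include H in
/-- reduction maps `L(aP+bZ)` to `L(aPk+bZk)` -/
theorem π_mem_LL {a b : ℕ} {x : F} (hx : x ∈ G.W) (hxL : x ∈ LL P Z 0 a b) :
    G.π ⟨x, hx⟩ ∈ LL Pk Zk 0 a b := by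
  rw [H.mem_LLk_iff]
  rw [H.mem_LL_iff] at hxL
  constructor
  · have h1 := G.isIntegralElem_π H.hk H.hspan H.tr (x := G.t ^ b * x)
      (mul_mem (pow_mem G.ht b) hx) hxL.1
    have h2 : (⟨G.t ^ b * x, mul_mem (pow_mem G.ht b) hx⟩ : G.W) = ⟨G.t, G.ht⟩ ^ b * ⟨x, hx⟩ := rfl
    rw [h2, map_mul, map_pow] at h1
    exact h1
  · have h1 := G.inv.isIntegralElem_π H.hk (G.inv_hspan H.hspan) (transcendental_inv H.tr)
      (x := G.t⁻¹ ^ a * x) (mul_mem (pow_mem G.inv_t_mem a) hx) hxL.2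
    have h2 : (⟨G.t⁻¹ ^ a * x, mul_mem (pow_mem G.inv_t_mem a) hx⟩ : G.W) =
      ⟨G.t⁻¹, G.inv_t_mem⟩ ^ a * ⟨x, hx⟩ := rfl
    have h3 : G.inv.π ⟨G.inv.t, G.inv.ht⟩ = (G.π ⟨G.t, G.ht⟩)⁻¹ := π_inv_t_eq G
    change (aeval (G.inv.π ⟨G.inv.t, G.inv.ht⟩) : k[X] →ₐ[k] R).toRingHom.IsIntegralElem
      (G.π ⟨G.t⁻¹ ^ a * x, mul_mem (pow_mem G.inv_t_mem a) hx⟩) at h1
    rw [h3, h2, map_mul, map_pow, π_inv_t_eq] at h1
    exact h1

include H in
theorem rd_le (a b : ℕ) : H.M.rd H.hk (LL P Z 0 a b) ≤ LL Pk Zk 0 a b := by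
  rintro _ ⟨x, hx, rfl⟩
  exact H.π_mem_LL hx.1 hx.2

include H in
theorem genus_le : gk ≤ g := by
  obtain ⟨c, hc⟩ := H.rr
  obtain ⟨c', hc'⟩ := H.rrk
  let n : ℕ := (max c c').toNat
  have hn : max c c' ≤ n := Int.self_le_toNat _
  have hd : (n : ℤ) ≤ n * d := by
    have : (1 : ℤ) ≤ d := by exact_mod_cast H.pz.pos
    nlinarith [Int.natCast_nonneg n]
  have e1 : Divisor.degree (n • P + 0 • Z + 0) = n * d := by
    rw [H.pz.degree]; simp
  have e2 : Divisor.degree (n • Pk + 0 • Zk + 0) = n * d := by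
    rw [H.pzk.degree]; simp
  obtain ⟨h1, h2⟩ := hc (n • P + 0 • Z + 0) (by rw [e1]; exact (le_max_left _ _).trans (hn.trans hd))
  obtain ⟨h3, h4⟩ := hc' (n • Pk + 0 • Zk + 0)
    (by rw [e2]; exact (le_max_right _ _).trans (hn.trans hd))
  haveI : FiniteDimensional K (LL P Z 0 n 0) := h1
  haveI : FiniteDimensional k (LL Pk Zk 0 n 0) := h3
  have h5 := Submodule.finrank_mono (H.rd_le n 0)
  rw [H.M.finrank_rd H.hk] at h5
  have h6 : (finrank K (LL P Z 0 n 0) : ℤ) = n * d + 1 - g := by rw [← e1]; exact h2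
  have h7 : (finrank k (LL Pk Zk 0 n 0) : ℤ) = n * d + 1 - gk := by rw [← e2]; exact h4
  have h8 : (finrank K (LL P Z 0 n 0) : ℤ) ≤ finrank k (LL Pk Zk 0 n 0) := by exact_mod_cast h5
  rw [h6, h7] at h8
  linarith

include H in
theorem finiteDimensional_LL (D : Divisor K F) (a b : ℕ) : FiniteDimensional K (LL P Z D a b) := by
  obtain ⟨c, hc⟩ := H.rr
  let n : ℕ := (c - Divisor.degree D).toNat
  have hn : c - Divisor.degree D ≤ n := Int.self_le_toNat _
  have hd : (n : ℤ) ≤ n * d := by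
    have : (1 : ℤ) ≤ d := by exact_mod_cast H.pz.pos
    nlinarith [Int.natCast_nonneg n]
  have e1 : Divisor.degree ((a + n) • P + b • Z + D) =
      ((a : ℤ) + n + b) * d + Divisor.degree D := by
    rw [H.pz.degree]; push_cast; ring
  have h0 : (0 : ℤ) ≤ (a + b) * d := by positivity
  obtain ⟨h1, -⟩ := hc ((a + n) • P + b • Z + D) (by
    rw [e1]
    have : ((a : ℤ) + n + b) * d = (a + b) * d + n * d := by ring
    rw [this]
    linarith)
  haveI : FiniteDimensional K (LL P Z D (a + n) b) := h1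
  exact Submodule.finiteDimensional_of_le (LL_mono H.pz D (Nat.le_add_right a n) le_rfl)

include H in
theorem finiteDimensional_LLk (D : Divisor k R) (a b : ℕ) :
    FiniteDimensional k (LL Pk Zk D a b) := by
  obtain ⟨c, hc⟩ := H.rrk
  let n : ℕ := (c - Divisor.degree D).toNat
  have hn : c - Divisor.degree D ≤ n := Int.self_le_toNat _
  have hd : (n : ℤ) ≤ n * d := by
    have : (1 : ℤ) ≤ d := by exact_mod_cast H.pz.pos
    nlinarith [Int.natCast_nonneg n]
  have e1 : Divisor.degree ((a + n) • Pk + b • Zk + D) =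
      ((a : ℤ) + n + b) * d + Divisor.degree D := by
    rw [H.pzk.degree]; push_cast; ring
  have h0 : (0 : ℤ) ≤ (a + b) * d := by positivity
  obtain ⟨h1, -⟩ := hc ((a + n) • Pk + b • Zk + D) (by
    rw [e1]
    have : ((a : ℤ) + n + b) * d = (a + b) * d + n * d := by ring
    rw [this]
    linarith)
  haveI : FiniteDimensional k (LL Pk Zk D (a + n) b) := h1
  exact Submodule.finiteDimensional_of_le (LL_mono H.pzk D (Nat.le_add_right a n) le_rfl)

end FibreHyp

/-- At a place, `P v = 0` or `Z v = 0`. -/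
theorem PoleZero.or {K F : Type*} [Field K] [Field F] [Algebra K F] {t : F} {P Z : Divisor K F}
    {d : ℕ} (h : PoleZero t P Z d) (v : Place K F) :
    (P v = 0 ∧ 0 ≤ Z v) ∨ (Z v = 0 ∧ 0 ≤ P v) := by
  rw [h.hP, h.hZ]
  rcases le_total 0 (v.ord t) with hv | hv
  · left; exact ⟨max_eq_right (by linarith), le_max_right _ _⟩
  · right; exact ⟨max_eq_right hv, le_max_right _ _⟩

theorem LL_inf {K F : Type*} [Field K] [Field F] [Algebra K F] {t : F} {P Z : Divisor K F}
    {d : ℕ} (h : PoleZero t P Z d) (D : Divisor K F) {a b n : ℕ} (ha : n ≤ a) (hb : n ≤ b) :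
    LL P Z D a n ⊓ LL P Z D n b = LL P Z D n n := by
  apply le_antisymm
  · rintro x ⟨h1, h2⟩
    change x ∈ LL P Z D a n at h1
    change x ∈ LL P Z D n b at h2
    rw [mem_LL] at h1 h2 ⊢
    intro v
    rcases h1 v with h3 | h3
    · exact Or.inl h3
    rcases h2 v with h4 | h4
    · exact Or.inl h4
    right
    rcases h.or v with ⟨h5, h6⟩ | ⟨h5, h6⟩
    · rw [h5] at h3 ⊢
      linarith
    · rw [h5] at h4 ⊢
      linarith
  · exact le_inf (LL_mono h D ha le_rfl) (LL_mono h D le_rfl hb)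

theorem LL_sup {K F : Type*} [Field K] [Field F] [Algebra K F] {t : F} {P Z : Divisor K F}
    {d : ℕ} (h : PoleZero t P Z d) (D : Divisor K F) (g : ℤ) (c : ℤ)
    (hc : ∀ D : Divisor K F, c ≤ Divisor.degree D →
    Module.Finite K (riemannRochSpace D) ∧
      (Module.finrank K (riemannRochSpace D) : ℤ) = Divisor.degree D + 1 - g)
    {a b n : ℕ} (ha : n ≤ a) (hb : n ≤ b) (hn : c ≤ (n + n) * d + Divisor.degree D) :
    LL P Z D a n ⊔ LL P Z D n b = LL P Z D a b := by
  have h1d : (1 : ℤ) ≤ d := by exact_mod_cast h.pos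
  have key : ∀ x y : ℕ, n ≤ x → n ≤ y → FiniteDimensional K (LL P Z D x y) ∧
      (finrank K (LL P Z D x y) : ℤ) = (x + y) * d + Divisor.degree D + 1 - g := by
    intro x y hx hy
    have hx' : (n : ℤ) ≤ x := by exact_mod_cast hx
    have hy' : (n : ℤ) ≤ y := by exact_mod_cast hy
    have e1 := h.degree x y D
    obtain ⟨h1, h2⟩ := hc (x • P + y • Z + D) (by rw [e1]; nlinarith)
    exact ⟨h1, by rw [← e1]; exact h2⟩
  obtain ⟨i1, e1⟩ := key a n ha le_rfl
  obtain ⟨i2, e2⟩ := key n b le_rfl hb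
  obtain ⟨i3, e3⟩ := key n n le_rfl le_rfl
  obtain ⟨i4, e4⟩ := key a b ha hb
  apply Submodule.eq_of_le_of_finrank_eq
  · exact sup_le (LL_mono h D le_rfl hb) (LL_mono h D ha le_rfl)
  · have := Submodule.finrank_sup_add_finrank_inf_eq (LL P Z D a n) (LL P Z D n b)
    rw [LL_inf h D ha hb] at this
    have h5 : ((finrank K ↥(LL P Z D a n ⊔ LL P Z D n b) : ℕ) : ℤ) + finrank K (LL P Z D n n) =
      finrank K (LL P Z D a n) + finrank K (LL P Z D n b) := by exact_mod_cast this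
    rw [e1, e2, e3] at h5
    have h6 : ((finrank K ↥(LL P Z D a n ⊔ LL P Z D n b) : ℕ) : ℤ) = finrank K (LL P Z D a b) := by
      rw [e4]; linarith
    exact_mod_cast h6

namespace FibreHyp

variable {ι : Type*} [Fintype ι] {G : GaussData A K F k R ι}
    {P Z : Divisor K F} {Pk Zk : Divisor k R} {d : ℕ} {g : ℤ}
    (H : FibreHyp G P Z Pk Zk d g g)

include H in
/-- **Rigidity**: if `f ∈ W` has divisor `m D` and its reduction is an `m`-th power then `f` is
an `m`-th power. -/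
theorem rigidity [IsAlgClosed K] (hA : ∃ t : A, t ≠ 0 ∧ ¬ IsUnit t)
    (hrank : ∀ a c : A, algebraMap A k a = 0 → c ≠ 0 → ∃ n : ℕ, c ∣ a ^ n)
    {m : ℕ} (hm : (m : k) ≠ 0) {f : F} (hf : f ∈ G.W) {γ : R} (hγ : γ ≠ 0)
    (hfγ : G.π ⟨f, hf⟩ = γ ^ m) (D : Divisor K F) (hD : ∀ v, (m : ℤ) * D v = v.ord f)
    (hD0 : Divisor.degree D = 0) : ∃ x : F, x ^ m = f := by
  classical
  have hm0 : m ≠ 0 := by rintro rfl; simp at hm
  have hmpos : (0 : ℤ) < m := by exact_mod_cast Nat.pos_of_ne_zero hm0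
  have hf0 : f ≠ 0 := by
    rintro rfl
    have : (⟨0, hf⟩ : G.W) = 0 := rfl
    rw [this, map_zero] at hfγ
    exact pow_ne_zero m hγ hfγ.symm
  obtain ⟨c, hc⟩ := H.rr
  obtain ⟨c', hc'⟩ := H.rrk
  let n0 : ℕ := (max c c').toNat
  have hn0 : max c c' ≤ n0 := Int.self_le_toNat _
  have h1d : (1 : ℤ) ≤ d := by exact_mod_cast H.pz.pos
  have hcn : c ≤ n0 := (le_max_left _ _).trans hn0
  have hcn' : c' ≤ n0 := (le_max_right _ _).trans hn0
  have hnn : (0 : ℤ) ≤ n0 := Int.natCast_nonneg _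
  haveI := fun a b => H.finiteDimensional_LL (0 : Divisor K F) a b
  haveI := fun a b => H.finiteDimensional_LL (-D) a b
  haveI := fun a b => H.finiteDimensional_LLk (0 : Divisor k R) a b
  have hrd : ∀ a b, n0 ≤ a + b → ∀ r : R, r ∈ H.M.rd H.hk (LL P Z (-D) a b) ↔
      ∃ s ∈ LL Pk Zk 0 a b, r = γ * s := by
    intro a b hab
    have hab' : (n0 : ℤ) ≤ a + b := by exact_mod_cast hab
    -- multiplication by `γ`
    let V' : Submodule k R := (LL Pk Zk 0 a b).map (LinearMap.mulLeft k γ)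
    have hV' : ∀ r, r ∈ V' ↔ ∃ s ∈ LL Pk Zk 0 a b, r = γ * s := by
      intro r
      constructor
      · rintro ⟨s, hs, rfl⟩; exact ⟨s, hs, rfl⟩
      · rintro ⟨s, hs, rfl⟩; exact ⟨s, hs, rfl⟩
    have hle : H.M.rd H.hk (LL P Z (-D) a b) ≤ V' := by
      rintro _ ⟨x, hx, rfl⟩
      rw [hV']
      refine ⟨γ⁻¹ * H.M.π ⟨x, hx.1⟩, ?_, by rw [mul_inv_cancel_left₀ hγ]⟩
      have hxW : x ∈ G.W := hx.1
      have hxL : x ∈ LL P Z (-D) a b := hx.2
      change γ⁻¹ * G.π ⟨x, hxW⟩ ∈ _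
      by_cases hx0 : G.π ⟨x, hxW⟩ = 0
      · rw [hx0, mul_zero]; exact zero_mem _
      have hx00 : x ≠ 0 := by
        rintro rfl
        exact hx0 (by
          have : (⟨0, hxW⟩ : G.W) = 0 := rfl
          rw [this, map_zero])
      -- `f` unit in W
      have hfu : IsUnit (⟨f, hf⟩ : G.W) :=
        G.isUnit_of _ (by rw [hfγ]; exact (IsUnit.mk0 _ hγ).pow m)
      obtain ⟨fu, hfu'⟩ := hfu
      have hfinv : ((↑fu⁻¹ : G.W) : F) = f⁻¹ := by
        have h1 : ((↑fu : G.W) : F) * ((↑fu⁻¹ : G.W) : F) = 1 := by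
          rw [← MulMemClass.coe_mul, Units.mul_inv]; rfl
        rw [hfu'] at h1
        exact eq_inv_of_mul_eq_one_right h1
      have hzW : x ^ m * f⁻¹ ∈ G.W := by
        rw [← hfinv]; exact mul_mem (pow_mem hxW m) (Subtype.prop _)
      have hzL : x ^ m * f⁻¹ ∈ LL P Z 0 (m * a) (m * b) := by
        rw [mem_LL] at hxL ⊢
        intro v
        right
        have h1 := (hxL v).resolve_left hx00
        have e1 : v.ord (x ^ m * f⁻¹) = m * v.ord x - m * D v := by
          rw [← div_eq_mul_inv, ord_div v (pow_ne_zero _ hx00) hf0, ord_pow, hD]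
        have e2 : (-D) v = - D v := rfl
        rw [e1]
        rw [e2] at h1
        simp only [Finsupp.coe_zero, Pi.zero_apply, add_zero]
        push_cast
        nlinarith
      have h2 := H.π_mem_LL hzW hzL
      have e3 : G.π ⟨x ^ m * f⁻¹, hzW⟩ = (γ⁻¹ * G.π ⟨x, hxW⟩) ^ m := by
        have e4 : (⟨x ^ m * f⁻¹, hzW⟩ : G.W) = ⟨x, hxW⟩ ^ m * ↑fu⁻¹ := by
          apply Subtype.ext
          change x ^ m * f⁻¹ = x ^ m * ((↑fu⁻¹ : G.W) : F)
          rw [hfinv]
        have e5 : G.π (↑fu⁻¹ : G.W) = (γ ^ m)⁻¹ := by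
          apply eq_inv_of_mul_eq_one_right
          rw [← hfγ, ← hfu', ← map_mul, Units.mul_inv, map_one]
        rw [e4, map_mul, map_pow, e5, mul_pow, inv_pow, mul_comm]
      rw [e3] at h2
      rw [mem_LL] at h2 ⊢
      intro v
      right
      have h3 : (γ⁻¹ * G.π ⟨x, hxW⟩) ≠ 0 := mul_ne_zero (inv_ne_zero hγ) hx0
      have h4 := (h2 v).resolve_left (pow_ne_zero _ h3)
      rw [ord_pow] at h4
      simp only [Finsupp.coe_zero, Pi.zero_apply, add_zero] at h4 ⊢
      push_cast at h4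
      have h5 : (m : ℤ) * (-(a * Pk v + b * Zk v)) ≤ m * v.ord (γ⁻¹ * G.π ⟨x, hxW⟩) := by linarith
      exact le_of_mul_le_mul_left h5 hmpos
    have hfr : finrank k V' = finrank k (LL Pk Zk 0 a b) :=
      (LinearEquiv.finrank_eq (Submodule.equivMapOfInjective (LinearMap.mulLeft k γ)
        (fun x y hxy => mul_left_cancel₀ hγ hxy) (LL Pk Zk 0 a b))).symm
    have heq : H.M.rd H.hk (LL P Z (-D) a b) = V' := by
      haveI : FiniteDimensional k V' := by
        change FiniteDimensional k ((LL Pk Zk 0 a b).map (LinearMap.mulLeft k γ))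
        infer_instance
      apply Submodule.eq_of_le_of_finrank_eq hle
      rw [H.M.finrank_rd H.hk, hfr]
      have e1 := H.pz.degree a b (-D)
      have e2 : Divisor.degree (a • Pk + b • Zk + 0) = (a + b) * d := by
        rw [H.pzk.degree, map_zero, add_zero]
      have e3 : Divisor.degree (-D) = 0 := by rw [map_neg, hD0, neg_zero]
      rw [e3, add_zero] at e1
      have h6 : (n0 : ℤ) ≤ (a + b) * d := by nlinarith
      obtain ⟨-, h1⟩ := hc (a • P + b • Z + -D) (by rw [e1]; linarith)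
      obtain ⟨-, h2⟩ := hc' (a • Pk + b • Zk + 0) (by rw [e2]; linarith)
      have h3 : (finrank K (LL P Z (-D) a b) : ℤ) = finrank k (LL Pk Zk 0 a b) := by
        rw [h1, h2, e1, e2]
      exact_mod_cast h3
    intro r
    rw [heq, hV']
  obtain ⟨x, -, hx⟩ := H.M.rigidity_abstract H.hk hA hrank hm hf (IsUnit.mk0 _ hγ) hfγ
    (LL P Z 0) (LL P Z (-D)) (fun ha hb => LL_mono H.pz _ ha hb) (fun ha hb => LL_mono H.pz _ ha hb)
    (by
      rw [mem_LL]
      intro v; right; simp [v.ord_one])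
    (fun hx hy => by
      have := LL_mul hx hy
      rwa [add_zero] at this)
    (fun hx hy => by
      have := LL_mul hx hy
      rwa [add_zero] at this)
    (by
      intro a b x hx
      rcases eq_or_ne x 0 with rfl | hx0
      · rw [zero_pow hm0, zero_mul]; exact zero_mem _
      rw [mem_LL] at hx ⊢
      intro v
      right
      have h1 := (hx v).resolve_left hx0
      have e1 : v.ord (x ^ m * f⁻¹) = m * v.ord x - m * D v := by
        rw [← div_eq_mul_inv, ord_div v (pow_ne_zero _ hx0) hf0, ord_pow, hD]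
      have e2 : (-D) v = - D v := rfl
      rw [e1]
      rw [e2] at h1
      simp only [Finsupp.coe_zero, Pi.zero_apply, add_zero]
      push_cast
      nlinarith)
    (LL Pk Zk 0)
    (by
      intro a b
      rw [mem_LL]
      intro v; right
      have h2 : 0 ≤ Pk v := by rw [H.pzk.hP]; exact le_max_right _ _
      have h3 : 0 ≤ Zk v := by rw [H.pzk.hZ]; exact le_max_right _ _
      simp only [Finsupp.coe_zero, Pi.zero_apply, add_zero, v.ord_one]
      have : (0 : ℤ) ≤ a * Pk v + b * Zk v := by positivity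
      linarith)
    n0 hrd
    (by
      intro a b ha hb s hs
      have h1 := LL_sup H.pzk 0 g c' hc' ha hb (by rw [map_zero]; nlinarith)
      rw [← h1] at hs
      obtain ⟨s1, hs1, s2, hs2, h⟩ := Submodule.mem_sup.1 hs
      exact ⟨s1, hs1, s2, hs2, h.symm⟩)
    (by
      intro a b ha hb
      rw [LL_inf H.pz _ ha hb])
  exact ⟨x, hx⟩

end FibreHyp

end Fermat.Agent.Red
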