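import Fermat.Agent.Red.Integral

/-!
# Gauss data: spanning from the degree, restriction of the codomain
-/

set_option autoImplicit false
set_option linter.unusedSectionVars false
set_option linter.style.haveILetI false

namespace Fermat.Agent.Red

open Module Polynomial IntermediateField

section Gen

variable {K F : Type*} [Field K] [Field F] [Algebra K F]

theorem aeval_mem_adjoin (t : F) (p : K[X]) : aeval t p ∈ K⟮t⟯ := by
  rw [aeval_eq_sum_range]
  refine sum_mem fun i _ => ?_
  rw [Algebra.smul_def]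
  exact mul_mem (K⟮t⟯.algebraMap_mem _) (pow_mem (mem_adjoin_simple_self K t) i)

/-- If `y` is independent over `K[t]` and has `[F : K(t)]` members, it generates `F` over `K(t)`. -/
theorem exists_repr_of_finrank {ι : Type*} [Fintype ι] (t : F) (htr : Transcendental K t)
    [FiniteDimensional K⟮t⟯ F]
    (y : ι → F) (hy : ∀ P : ι → K[X], ∑ i, aeval t (P i) * y i = 0 → P = 0)
    (hcard : finrank K⟮t⟯ F = Fintype.card ι) (x : F) :
    ∃ q : K[X], q ≠ 0 ∧ ∃ P : ι → K[X], aeval t q * x = ∑ i, aeval t (P i) * y i := by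
  classical
  let g : K⟮t⟯ := AdjoinSimple.gen K t
  letI : Algebra K[X] K⟮t⟯ := (aeval g).toRingHom.toAlgebra
  letI : Algebra K[X] F := (aeval t).toRingHom.toAlgebra
  haveI : IsScalarTower K[X] K⟮t⟯ F := by
    refine IsScalarTower.of_algebraMap_eq fun p => ?_
    change aeval t p = algebraMap K⟮t⟯ F (aeval g p)
    rw [← aeval_algebraMap_apply]
    rfl
  haveI : IsFractionRing K[X] K⟮t⟯ := by
    let e : RatFunc K ≃ₐ[K[X]] K⟮t⟯ :=
      AlgEquiv.ofRingEquiv (f := (RatFunc.algEquivOfTranscendental t htr).toRingEquiv)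
        (fun p => RatFunc.algEquivOfTranscendental_algebraMap t htr p)
    exact IsLocalization.isLocalization_of_algEquiv (nonZeroDivisors K[X]) e
  have hli : LinearIndependent K⟮t⟯ y := by
    rw [← LinearIndependent.iff_fractionRing K[X] K⟮t⟯, Fintype.linearIndependent_iff]
    intro P hP i
    have : P = 0 := hy P (by
      rw [← hP]
      refine Finset.sum_congr rfl fun i _ => ?_
      rw [Algebra.smul_def]; rfl)
    rw [this]; rfl
  have hspan := hli.span_eq_top_of_card_eq_finrank' hcard.symm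
  have hx : x ∈ Submodule.span K⟮t⟯ (Set.range y) := by rw [hspan]; trivial
  obtain ⟨c, hc⟩ := (Submodule.mem_span_range_iff_exists_fun K⟮t⟯).1 hx
  obtain ⟨⟨q, hq⟩, hqc⟩ := IsLocalization.exist_integer_multiples_of_finite (nonZeroDivisors K[X]) c
  choose P hP using hqc
  refine ⟨q, nonZeroDivisors.ne_zero hq, P, ?_⟩
  have h1 : aeval t q * x = (q • x : F) := by rw [Algebra.smul_def]; rfl
  rw [h1, ← hc, Finset.smul_sum]
  refine Finset.sum_congr rfl fun i _ => ?_
  have h2 : aeval t (P i) * y i = (P i) • y i := by rw [Algebra.smul_def]; rfl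
  rw [h2, ← algebraMap_smul K⟮t⟯ (P i) (y i), hP i, smul_assoc]

end Gen

variable {A K F k R : Type*} [CommRing A] [IsDomain A] [ValuationRing A]
  [Field K] [Algebra A K] [IsFractionRing A K] [Field F] [Algebra K F] [Algebra A F]
  [IsScalarTower A K F] [Field k] [Algebra A k] [CommRing R] [Algebra k R] [Algebra A R]
  [IsScalarTower A k R]

namespace GaussData

variable {ι : Type*} [Fintype ι] (G : GaussData A K F k R ι)

theorem transcendental [Nonempty ι] : Transcendental K G.t := by
  classical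
  rw [transcendental_iff_injective, injective_iff_map_eq_zero]
  intro p hp
  obtain ⟨i⟩ := ‹Nonempty ι›
  have h := G.comb_injective (P := Pi.single i p) (by
    rw [comb]
    refine Finset.sum_eq_zero fun j _ => ?_
    by_cases h : j = i
    · subst h
      rw [Pi.single_eq_same, hp, zero_mul]
    · rw [Pi.single_eq_of_ne h, map_zero, zero_mul])
  have := congrFun h i
  rwa [Pi.single_eq_same] at this

theorem hspan_of_finrank [Nonempty ι] [FiniteDimensional K⟮G.t⟯ F]
    (hcard : finrank K⟮G.t⟯ F = Fintype.card ι) (x : F) :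
    ∃ q : K[X], q ≠ 0 ∧ ∃ P : ι → K[X], aeval G.t q * x = G.comb P :=
  exists_repr_of_finrank G.t G.transcendental G.y (fun _ hP => G.comb_injective hP) hcard x

/-- `π x` is a combination with polynomial coefficients, up to a denominator. -/
theorem π_repr (hk : Function.Surjective (algebraMap A k))
    (hspan : ∀ x : F, ∃ q : K[X], q ≠ 0 ∧ ∃ P : ι → K[X], aeval G.t q * x = G.comb P) (x : G.W) :
    ∃ q : k[X], q ≠ 0 ∧ ∃ P : ι → k[X], aeval (G.π ⟨G.t, G.ht⟩) q * G.π x =
      ∑ i, aeval (G.π ⟨G.t, G.ht⟩) (P i) * G.π ⟨G.y i, G.hy i⟩ := by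
  obtain ⟨q, hq, P, hP⟩ := G.exists_primitive_repr hspan (x : F)
  obtain ⟨Q, hQ⟩ := G.exists_of_mem hk x.2 hq hP
  have hP' : P = fun i => (Q i).map (algebraMap A K) := funext hQ
  have h1 : aeval (⟨G.t, G.ht⟩ : G.W) q * x = G.combW Q := by
    apply Subtype.ext
    rw [MulMemClass.coe_mul, coe_aeval, coe_combW, hP, hP']
  refine ⟨_, hq, fun i => (Q i).map (algebraMap A k), ?_⟩
  rw [← π_combW, ← h1, map_mul, π_aeval]

end GaussData

section Restrict

variable {R' : Type*} [Field R'] [Algebra k R'] [Algebra A R'] [IsScalarTower A k R']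
variable {ι : Type*} [Fintype ι] (G : GaussData A K F k R' ι)

theorem GaussData.π_mem (F' : IntermediateField k R')
    (ht : G.π ⟨G.t, G.ht⟩ ∈ F') (hy : ∀ i, G.π ⟨G.y i, G.hy i⟩ ∈ F')
    (hk : Function.Surjective (algebraMap A k))
    (hspan : ∀ x : F, ∃ q : K[X], q ≠ 0 ∧ ∃ P : ι → K[X], aeval G.t q * x = G.comb P) (x : G.W) :
    G.π x ∈ F' := by
  obtain ⟨q, hq, P, hP⟩ := G.π_repr hk hspan x
  have hq0 : aeval (G.π ⟨G.t, G.ht⟩) q ≠ 0 := (G.isUnit_t q hq).ne_zero
  have hmem : ∀ q : k[X], aeval (G.π ⟨G.t, G.ht⟩) q ∈ F' := by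
    intro q
    rw [aeval_eq_sum_range]
    refine sum_mem fun i _ => ?_
    rw [Algebra.smul_def]
    exact mul_mem (F'.algebraMap_mem _) (pow_mem ht i)
  have h1 : G.π x = (aeval (G.π ⟨G.t, G.ht⟩) q)⁻¹ *
      ∑ i, aeval (G.π ⟨G.t, G.ht⟩) (P i) * G.π ⟨G.y i, G.hy i⟩ := by
    rw [← hP, inv_mul_cancel_left₀ hq0]
  rw [h1]
  exact mul_mem (inv_mem (hmem q)) (sum_mem fun i _ => mul_mem (hmem _) (hy i))

/-- Restriction of the codomain of Gauss data to an intermediate field. -/
noncomputable def GaussData.codRestrict (F' : IntermediateField k R')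
    (ht : G.π ⟨G.t, G.ht⟩ ∈ F') (hy : ∀ i, G.π ⟨G.y i, G.hy i⟩ ∈ F')
    (hk : Function.Surjective (algebraMap A k))
    (hspan : ∀ x : F, ∃ q : K[X], q ≠ 0 ∧ ∃ P : ι → K[X], aeval G.t q * x = G.comb P) :
    GaussData A K F k F' ι where
  W := G.W
  π := 
    { toFun := fun x => ⟨G.π x, G.π_mem F' ht hy hk hspan x⟩
      map_one' := Subtype.ext (map_one G.π)
      map_mul' := fun x y => Subtype.ext (map_mul G.π x y)
      map_zero' := Subtype.ext (map_zero G.π)
      map_add' := fun x y => Subtype.ext (map_add G.π x y)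
      commutes' := fun a => Subtype.ext (G.π.commutes a) }
  t := G.t
  ht := G.ht
  y := G.y
  hy := G.hy
  isUnit_of := fun x hx => G.isUnit_of x (by
    have := hx.map F'.val
    exact this)
  indep := by
    intro P hP
    apply G.indep P
    rw [finsum_eq_sum_of_fintype] at hP ⊢
    have := congrArg F'.val hP
    rw [map_sum] at this
    refine Eq.trans ?_ this
    refine Finset.sum_congr rfl fun i _ => ?_
    rw [map_mul, ← aeval_algHom_apply]
    rfl
  isUnit_t := by
    intro q hq
    have h := (G.isUnit_t q hq).ne_zero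
    refine IsUnit.mk0 _ fun h0 => h ?_
    have := congrArg F'.val h0
    rw [← aeval_algHom_apply] at this
    exact this

end Restrict

end Fermat.Agent.Red
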