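import Fermat.Agent.Red.Rigid

/-!
# Reduction models from Gauss-type data
-/

set_option autoImplicit false
set_option linter.unusedSectionVars false
set_option linter.style.haveILetI false

namespace Fermat.Agent.Red

open Module Polynomial

section Content

variable {A K k : Type*} [CommRing A] [IsDomain A] [ValuationRing A]
  [Field K] [Algebra A K] [IsFractionRing A K] [Field k] [Algebra A k]

/-- In a valuation ring a finite family of elements, not all zero, is a multiple of one of its
nonzero members. -/
theorem exists_dvd_all {ι : Type*} (s : Finset ι) (a : ι → A) (h : ∃ i ∈ s, a i ≠ 0) :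
    ∃ i ∈ s, a i ≠ 0 ∧ ∀ j ∈ s, a i ∣ a j := by
  classical
  induction s using Finset.induction_on with
  | empty => simp at h
  | insert i0 s hi0 ih =>
    by_cases hs : ∃ i ∈ s, a i ≠ 0
    · obtain ⟨i, hi, hi1, hi2⟩ := ih hs
      rcases ValuationRing.dvd_total (a i) (a i0) with h1 | h1
      · refine ⟨i, Finset.mem_insert_of_mem hi, hi1, ?_⟩
        intro j hj
        rcases Finset.mem_insert.1 hj with rfl | hj
        · exact h1
        · exact hi2 j hj
      · by_cases h0 : a i0 = 0
        · refine ⟨i, Finset.mem_insert_of_mem hi, hi1, ?_⟩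
          intro j hj
          rcases Finset.mem_insert.1 hj with rfl | hj
          · rw [h0]; exact dvd_zero _
          · exact hi2 j hj
        · refine ⟨i0, Finset.mem_insert_self _ _, h0, ?_⟩
          intro j hj
          rcases Finset.mem_insert.1 hj with rfl | hj
          · exact dvd_rfl
          · exact h1.trans (hi2 j hj)
    · push Not at hs
      obtain ⟨i, hi, hi1⟩ := h
      rcases Finset.mem_insert.1 hi with rfl | hi
      · refine ⟨i, Finset.mem_insert_self _ _, hi1, ?_⟩
        intro j hj
        rcases Finset.mem_insert.1 hj with rfl | hj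
        · exact dvd_rfl
        · rw [hs j hj]; exact dvd_zero _
      · exact absurd (hs i hi) hi1

variable (A K) in
/-- Clear denominators and make primitive: for a finite family of polynomials over `K`, not all
zero, there are nonzero `a b : A` and polynomials `Q i` over `A` with `a P_i = b Q_i` and some
coefficient of some `Q i` is `1`. -/
theorem exists_primitive {ι : Type*} [Finite ι] (P : ι → K[X]) (h : ∃ i, P i ≠ 0) :
    ∃ a b : A, a ≠ 0 ∧ b ≠ 0 ∧ ∃ Q : ι → A[X],
      (∀ i, C (algebraMap A K a) * P i = C (algebraMap A K b) * (Q i).map (algebraMap A K)) ∧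
      ∃ i e, (Q i).coeff e = 1 := by
  classical
  haveI := Fintype.ofFinite ι
  -- finite set of indices (i,e)
  let N := Finset.univ.sup fun i => (P i).natDegree + 1
  have hN : ∀ i, (P i).natDegree < N := fun i =>
    lt_of_lt_of_le (Nat.lt_succ_self _) (Finset.le_sup (f := fun i => (P i).natDegree + 1)
      (Finset.mem_univ i))
  obtain ⟨a, ha⟩ := IsLocalization.exist_integer_multiples_of_finite (nonZeroDivisors A)
    (fun x : ι × Fin N => (P x.1).coeff x.2)
  choose c hc using ha
  have ha0 : (a : A) ≠ 0 := nonZeroDivisors.coe_ne_zero a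
  have ha0' : algebraMap A K a ≠ 0 := by simpa using ha0
  have hex : ∃ x ∈ (Finset.univ : Finset (ι × Fin N)), c x ≠ 0 := by
    obtain ⟨i, hi⟩ := h
    refine ⟨(i, ⟨(P i).natDegree, hN i⟩), Finset.mem_univ _, ?_⟩
    intro h0
    have := hc (i, ⟨(P i).natDegree, hN i⟩)
    rw [h0, map_zero, Algebra.smul_def] at this
    have h1 := mul_eq_zero.1 this.symm
    rcases h1 with h1 | h1
    · exact ha0' h1
    · exact hi (Polynomial.leadingCoeff_eq_zero.1 h1)
  obtain ⟨x0, -, hx0, hdvd⟩ := exists_dvd_all Finset.univ c hex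
  have hdvd' : ∀ x, c x0 ∣ c x := fun x => hdvd x (Finset.mem_univ x)
  choose d hd using hdvd'
  refine ⟨a, c x0, ha0, hx0, fun i => ∑ e : Fin N, C (d (i, e)) * X ^ (e : ℕ), ?_, ?_⟩
  · intro i
    ext e
    rw [coeff_C_mul, coeff_C_mul, coeff_map]
    rw [finsetSum_coeff]
    simp only [coeff_C_mul, coeff_X_pow, mul_ite, mul_one, mul_zero]
    by_cases he : e < N
    · rw [Finset.sum_eq_single (⟨e, he⟩ : Fin N)]
      · simp only [if_true]
        rw [← map_mul, ← hd, hc, Algebra.smul_def]
      · intro b _ hb
        rw [if_neg]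
        intro h; exact hb (Fin.ext h.symm)
      · intro h; exact absurd (Finset.mem_univ _) h
    · rw [Finset.sum_eq_zero, map_zero, mul_zero, coeff_eq_zero_of_natDegree_lt, mul_zero]
      · exact lt_of_lt_of_le (hN i) (not_lt.1 he)
      · intro b _
        rw [if_neg]
        intro h; exact he (h ▸ b.2)
  · refine ⟨x0.1, x0.2, ?_⟩
    rw [finsetSum_coeff]
    simp only [coeff_C_mul, coeff_X_pow, mul_ite, mul_one, mul_zero]
    rw [Finset.sum_eq_single x0.2]
    · rw [if_pos rfl]
      have := hd x0
      have h1 : c x0 * 1 = c x0 * d x0 := by rw [mul_one]; exact this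
      exact (mul_left_cancel₀ hx0 h1).symm
    · intro b _ hb
      rw [if_neg]
      intro h; exact hb (Fin.ext h.symm)
    · intro h; exact absurd (Finset.mem_univ _) h

end Content

variable {A K F k R : Type*} [CommRing A] [IsDomain A] [ValuationRing A]
  [Field K] [Algebra A K] [IsFractionRing A K] [Field F] [Algebra K F] [Algebra A F]
  [IsScalarTower A K F] [Field k] [Algebra A k] [CommRing R] [Algebra k R] [Algebra A R]
  [IsScalarTower A k R]

/-- Gauss data: an `A`-subalgebra `W` with reduction `π`, a parameter `t` and a family `y` -/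
structure GaussData (A K F k R : Type*) [CommRing A] [Field K] [Field F] [Algebra A F]
    [Field k] [Algebra A k] [CommRing R] [Algebra k R] [Algebra A R] (ι : Type*) where
  W : Subalgebra A F
  π : W →ₐ[A] R
  t : F
  ht : t ∈ W
  y : ι → F
  hy : ∀ i, y i ∈ W
  isUnit_of : ∀ x : W, IsUnit (π x) → IsUnit x
  indep : ∀ P : ι → k[X], ∑ᶠ i, aeval (π ⟨t, ht⟩) (P i) * π ⟨y i, hy i⟩ = 0 → P = 0
  isUnit_t : ∀ q : k[X], q ≠ 0 → IsUnit (aeval (π ⟨t, ht⟩) q)

namespace GaussData

variable {ι : Type*} [Fintype ι] (G : GaussData A K F k R ι)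

/-- combination with polynomial coefficients over `A`, as an element of `W` -/
noncomputable def combW (P : ι → A[X]) : G.W :=
  ∑ i, aeval (⟨G.t, G.ht⟩ : G.W) (P i) * ⟨G.y i, G.hy i⟩

/-- combination over `K` -/
noncomputable def comb (P : ι → K[X]) : F := ∑ i, aeval G.t (P i) * G.y i

theorem coe_aeval (p : A[X]) : ((aeval (⟨G.t, G.ht⟩ : G.W) p : G.W) : F) = aeval G.t p := by
  have := Polynomial.aeval_algHom_apply G.W.val (⟨G.t, G.ht⟩ : G.W) p
  exact this.symm

theorem aeval_map_K (p : A[X]) : aeval G.t (p.map (algebraMap A K)) = aeval G.t p := by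
  rw [aeval_map_algebraMap]

theorem coe_combW (P : ι → A[X]) :
    (G.combW P : F) = G.comb (fun i => (P i).map (algebraMap A K)) := by
  simp only [combW, comb, aeval_map_K]
  push_cast
  rfl

theorem π_aeval (p : A[X]) : G.π (aeval (⟨G.t, G.ht⟩ : G.W) p) =
    aeval (G.π ⟨G.t, G.ht⟩) (p.map (algebraMap A k)) := by
  rw [aeval_map_algebraMap, Polynomial.aeval_algHom_apply]

theorem π_combW (P : ι → A[X]) : G.π (G.combW P) =
    ∑ i, aeval (G.π ⟨G.t, G.ht⟩) ((P i).map (algebraMap A k)) * G.π ⟨G.y i, G.hy i⟩ := by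
  simp only [combW, map_sum, map_mul, π_aeval]

theorem eq_zero_of_π_combW {P : ι → A[X]} (h : G.π (G.combW P) = 0) (i : ι) :
    (P i).map (algebraMap A k) = 0 := by
  have := G.indep (fun i => (P i).map (algebraMap A k)) (by
    rw [finsum_eq_sum_of_fintype, ← π_combW, h])
  exact congrFun this i

theorem comb_injective {P : ι → K[X]} (h : G.comb P = 0) : P = 0 := by
  by_contra hP
  have hP' : ∃ i, P i ≠ 0 := by
    by_contra hc
    push Not at hc
    exact hP (funext hc)
  obtain ⟨a, b, ha, hb, Q, hQ, i, e, hie⟩ := exists_primitive A K P hP'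
  have h1 : G.combW Q = 0 := by
    apply Subtype.ext
    rw [coe_combW]
    have hb' : algebraMap A F b ≠ 0 := by
      rw [IsScalarTower.algebraMap_apply A K F]
      simpa using hb
    have : algebraMap A F b * G.comb (fun i => (Q i).map (algebraMap A K)) = 0 := by
      have e1 : algebraMap A F b * G.comb (fun i => (Q i).map (algebraMap A K)) =
          algebraMap A F a * G.comb P := by
        simp only [comb, Finset.mul_sum]
        refine Finset.sum_congr rfl fun i _ => ?_
        have := congrArg (aeval G.t) (hQ i)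
        simp only [map_mul, aeval_C] at this
        rw [← mul_assoc, ← mul_assoc, IsScalarTower.algebraMap_apply A K F,
          IsScalarTower.algebraMap_apply A K F a, this]
      rw [e1, h, mul_zero]
    rcases mul_eq_zero.1 this with h2 | h2
    · exact absurd h2 hb'
    · exact h2
  have h2 := G.eq_zero_of_π_combW (P := Q) (by rw [h1, map_zero]) i
  have h3 := congrArg (fun p => Polynomial.coeff p e) h2
  simp only [coeff_map, hie, map_one, coeff_zero] at h3
  exact one_ne_zero h3

theorem isUnit_aeval {q : A[X]} (hq : q.map (algebraMap A k) ≠ 0) :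
    IsUnit (aeval (⟨G.t, G.ht⟩ : G.W) q) := by
  apply G.isUnit_of
  rw [π_aeval]
  exact G.isUnit_t _ hq

theorem aeval_ne_zero {q : A[X]} (hq : q.map (algebraMap A k) ≠ 0) : aeval G.t q ≠ 0 := by
  have := (G.isUnit_aeval hq).ne_zero
  intro h
  apply this
  apply Subtype.ext
  rw [coe_aeval, h]; rfl

/-- main criterion: if `q(t) x = Σ P_i(t) y_i` with `q` primitive, then `x ∈ W` iff the `P_i`
have coefficients in `A`. -/
theorem exists_of_mem (hk : Function.Surjective (algebraMap A k)) {x : F} (hx : x ∈ G.W) {q : A[X]}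
    (hq : q.map (algebraMap A k) ≠ 0)
    {P : ι → K[X]} (h : aeval G.t q * x = G.comb P) :
    ∃ Q : ι → A[X], ∀ i, P i = (Q i).map (algebraMap A K) := by
  by_cases hP : ∃ i, P i ≠ 0
  swap
  · push Not at hP
    exact ⟨fun _ => 0, fun i => by rw [hP i]; simp⟩
  obtain ⟨a, b, ha, hb, Q, hQ, i, e, hie⟩ := exists_primitive A K P hP
  -- a P = b Q ; show a ∣ b
  have h1 : (a : A) • (aeval (⟨G.t, G.ht⟩ : G.W) q * (⟨x, hx⟩ : G.W)) = b • G.combW Q := by
    apply Subtype.ext
    rw [SetLike.val_smul, SetLike.val_smul, MulMemClass.coe_mul, coe_aeval, coe_combW]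
    change a • (aeval G.t q * x) = _
    rw [h, Algebra.smul_def, Algebra.smul_def]
    simp only [comb, Finset.mul_sum]
    refine Finset.sum_congr rfl fun i _ => ?_
    have := congrArg (aeval G.t) (hQ i)
    simp only [map_mul, aeval_C] at this
    rw [← mul_assoc, ← mul_assoc, IsScalarTower.algebraMap_apply A K F,
      IsScalarTower.algebraMap_apply A K F b, this]
  have hab : a ∣ b := by
    rcases ValuationRing.dvd_total a b with h2 | ⟨c, hc⟩
    · exact h2
    -- a = b c
    have h3 : c • (aeval (⟨G.t, G.ht⟩ : G.W) q * (⟨x, hx⟩ : G.W)) = G.combW Q := by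
      rw [hc, mul_smul] at h1
      have hb' : algebraMap A F b ≠ 0 := by
        rw [IsScalarTower.algebraMap_apply A K F]
        simpa using hb
      apply Subtype.ext
      have := congrArg Subtype.val h1
      have h2 : b • ((c • (aeval (⟨G.t, G.ht⟩ : G.W) q * (⟨x, hx⟩ : G.W)) : G.W) : F) =
        b • (G.combW Q : F) := this
      rw [Algebra.smul_def b, Algebra.smul_def b] at h2
      exact mul_left_cancel₀ hb' h2
    by_cases hcu : IsUnit c
    · obtain ⟨u, rfl⟩ := hcu
      exact ⟨↑u⁻¹, by rw [hc, mul_assoc, Units.mul_inv, mul_one]⟩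
    · exfalso
      have hc0 : algebraMap A k c = 0 := by
        by_contra h0
        exact hcu (isUnit_of_red_ne_zero hk h0)
      have h4 : G.π (G.combW Q) = 0 := by
        rw [← h3, map_smul, ← algebraMap_smul k c, hc0, zero_smul]
      have h5 := G.eq_zero_of_π_combW h4 i
      have h6 := congrArg (fun p => Polynomial.coeff p e) h5
      simp only [coeff_map, hie, map_one, coeff_zero] at h6
      exact one_ne_zero h6
  obtain ⟨c, rfl⟩ := hab
  refine ⟨fun i => C c * Q i, fun i => ?_⟩
  have h7 := hQ i
  have ha' : (C (algebraMap A K a) : K[X]) ≠ 0 := by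
    rw [Ne, C_eq_zero]; simpa using ha
  apply mul_left_cancel₀ ha'
  rw [h7, Polynomial.map_mul, map_C, map_mul, C_mul, mul_assoc]

variable (hk : Function.Surjective (algebraMap A k))
variable (hspan : ∀ x : F, ∃ q : K[X], q ≠ 0 ∧ ∃ P : ι → K[X], aeval G.t q * x = G.comb P)

include hspan in
theorem exists_primitive_repr (x : F) : ∃ q : A[X], q.map (algebraMap A k) ≠ 0 ∧
    ∃ P : ι → K[X], aeval G.t q * x = G.comb P := by
  obtain ⟨q, hq, P, hP⟩ := hspan x
  obtain ⟨a, b, ha, hb, Q, hQ, i, e, hie⟩ := exists_primitive A K (fun _ : Unit => q) ⟨(), hq⟩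
  have hb' : algebraMap A K b ≠ 0 := by simpa using hb
  refine ⟨Q (), ?_, fun i => C (algebraMap A K a / algebraMap A K b) * P i, ?_⟩
  · intro h
    have h3 := congrArg (fun p => Polynomial.coeff p e) h
    simp only [coeff_map, coeff_zero] at h3
    rw [show (Q ()).coeff e = 1 from hie, map_one] at h3
    exact one_ne_zero h3
  · have h1 : aeval G.t (Q ()) = algebraMap K F (algebraMap A K a / algebraMap A K b) * aeval G.t q := by
      have := congrArg (aeval G.t) (hQ ())
      simp only [map_mul, aeval_C, aeval_map_K] at this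
      rw [map_div₀, div_mul_eq_mul_div, this]
      field_simp [(map_ne_zero (algebraMap K F)).2 hb']
    rw [h1, mul_assoc, hP]
    simp only [comb, Finset.mul_sum, map_mul, aeval_C, mul_assoc]

include hk hspan in
theorem ker_mem (x : G.W) (hx : G.π x = 0) :
    ∃ a : A, algebraMap A k a = 0 ∧ ∃ y : G.W, x = a • y := by
  obtain ⟨q, hq, P, hP⟩ := G.exists_primitive_repr hspan (x : F)
  obtain ⟨Q, hQ⟩ := G.exists_of_mem hk x.2 hq hP
  have hP' : P = fun i => (Q i).map (algebraMap A K) := funext hQ
  have h1 : aeval (⟨G.t, G.ht⟩ : G.W) q * x = G.combW Q := by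
    apply Subtype.ext
    rw [MulMemClass.coe_mul, coe_aeval, coe_combW, hP, hP']
  have h2 : G.π (G.combW Q) = 0 := by rw [← h1, map_mul, hx, mul_zero]
  have h3 := G.eq_zero_of_π_combW h2
  obtain ⟨u, hu⟩ := G.isUnit_aeval hq
  by_cases h4 : ∃ i, Q i ≠ 0
  · -- common divisor of the coefficients
    have h5 : ∃ a b : A, a ≠ 0 ∧ b ≠ 0 ∧ _ := exists_primitive A K
      (fun i => (Q i).map (algebraMap A K)) (by
        obtain ⟨i, hi⟩ := h4
        exact ⟨i, (Polynomial.map_ne_zero_iff (IsFractionRing.injective A K)).2 hi⟩)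
    obtain ⟨a, b, ha, hb, Q', hQ', i, e, hie⟩ := h5
    have hQ'' : ∀ i, C a * Q i = C b * Q' i := by
      intro i
      apply Polynomial.map_injective (algebraMap A K) (IsFractionRing.injective A K)
      rw [Polynomial.map_mul, Polynomial.map_mul, map_C, map_C]
      exact hQ' i
    -- a ∣ b since coefficient e of Q' i is one
    have hb2 : b = a * (Q i).coeff e := by
      have := congrArg (fun p => Polynomial.coeff p e) (hQ'' i)
      simp only [coeff_C_mul, hie, mul_one] at this
      exact this.symm
    refine ⟨(Q i).coeff e, ?_, ↑u⁻¹ * G.combW Q', ?_⟩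
    · have := congrArg (fun p => Polynomial.coeff p e) (h3 i)
      simpa using this
    · have h6 : G.combW Q = (Q i).coeff e • G.combW Q' := by
        have h7 : ∀ j, Q j = C ((Q i).coeff e) * Q' j := by
          intro j
          have h8 := hQ'' j
          rw [hb2, C_mul, mul_assoc] at h8
          exact mul_left_cancel₀ (by rw [Ne, C_eq_zero]; exact ha) h8
        simp only [combW, Finset.smul_sum]
        refine Finset.sum_congr rfl fun j _ => ?_
        conv_lhs => rw [h7 j]
        rw [map_mul, aeval_C, Algebra.smul_def, mul_assoc]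
      rw [← mul_smul_comm, ← h6, ← h1, ← hu, Units.inv_mul_cancel_left]
  · push Not at h4
    refine ⟨0, by simp, 0, ?_⟩
    have h5 : G.combW Q = 0 := by simp [combW, h4]
    have h6 : x = ↑u⁻¹ * G.combW Q := by
      rw [← h1, ← hu, Units.inv_mul_cancel_left]
    rw [h6, h5]; simp

include hspan in
theorem scale (x : F) : ∃ a : A, a ≠ 0 ∧ a • x ∈ G.W := by
  obtain ⟨q, hq, P, hP⟩ := G.exists_primitive_repr hspan (x : F)
  obtain ⟨u, hu⟩ := G.isUnit_aeval hq
  by_cases h4 : ∃ i, P i ≠ 0
  · obtain ⟨a, b, ha, hb, Q, hQ, i, e, hie⟩ := exists_primitive A K P h4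
    refine ⟨a, ha, ?_⟩
    have h1 : a • x = ((b • (↑u⁻¹ * G.combW Q) : G.W) : F) := by
      have hq0 : aeval G.t q ≠ 0 := G.aeval_ne_zero hq
      apply mul_left_cancel₀ hq0
      have h2 : aeval G.t q * (((↑u⁻¹ * G.combW Q) : G.W) : F) = (G.combW Q : F) := by
        rw [← G.coe_aeval q, ← MulMemClass.coe_mul, ← hu, Units.mul_inv_cancel_left]
      rw [SetLike.val_smul, mul_smul_comm, mul_smul_comm, h2, hP, coe_combW,
        Algebra.smul_def, Algebra.smul_def]
      simp only [comb, Finset.mul_sum]
      refine Finset.sum_congr rfl fun i _ => ?_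
      have := congrArg (aeval G.t) (hQ i)
      simp only [map_mul, aeval_C] at this
      rw [← mul_assoc, ← mul_assoc, IsScalarTower.algebraMap_apply A K F,
        IsScalarTower.algebraMap_apply A K F b, this]
    rw [h1]
    exact Subtype.prop _
  · push Not at h4
    refine ⟨1, one_ne_zero, ?_⟩
    have h5 : x = 0 := by
      have hq0 : aeval G.t q ≠ 0 := G.aeval_ne_zero hq
      have : aeval G.t q * x = 0 := by rw [hP]; simp [comb, h4]
      rcases mul_eq_zero.1 this with h | h
      · exact absurd h hq0
      · exact h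
    rw [h5, smul_zero]; exact zero_mem _

include hspan in
/-- common primitive denominator for finitely many elements -/
theorem exists_common {κ : Type*} (s : Finset κ) (v : κ → F) : ∃ q : A[X],
    q.map (algebraMap A k) ≠ 0 ∧ ∀ j ∈ s, ∃ P : ι → K[X], aeval G.t q * v j = G.comb P := by
  classical
  induction s using Finset.induction_on with
  | empty => exact ⟨1, by simp, by simp⟩
  | insert j0 s hj0 ih =>
    obtain ⟨q, hq, h⟩ := ih
    obtain ⟨q', hq', P', hP'⟩ := G.exists_primitive_repr hspan (v j0)
    refine ⟨q * q', ?_, ?_⟩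
    · rw [Polynomial.map_mul]; exact mul_ne_zero hq hq'
    · have hmul : ∀ (q : A[X]) (P : ι → K[X]), aeval G.t q * G.comb P =
          G.comb (fun i => q.map (algebraMap A K) * P i) := by
        intro q P
        simp only [comb, Finset.mul_sum, map_mul, aeval_map_K, mul_assoc]
      intro j hj
      rcases Finset.mem_insert.1 hj with rfl | hj
      · exact ⟨_, by rw [map_mul, mul_assoc, hP', hmul]⟩
      · obtain ⟨P, hP⟩ := h j hj
        exact ⟨_, by rw [map_mul, mul_comm (aeval G.t q), mul_assoc, hP, hmul]⟩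

include hk hspan in
theorem fg (V : Submodule K F) [FiniteDimensional K V] :
    (Subalgebra.toSubmodule G.W ⊓ V.restrictScalars A).FG := by
  classical
  let b := Module.finBasis K V
  obtain ⟨q, hq, h⟩ := G.exists_common hspan Finset.univ (fun j => (b j : F))
  have h' : ∀ j, ∃ P : ι → K[X], aeval G.t q * (b j : F) = G.comb P :=
    fun j => h j (Finset.mem_univ j)
  choose P hP using h'
  obtain ⟨u, hu⟩ := G.isUnit_aeval hq
  have hq0 : aeval G.t q ≠ 0 := G.aeval_ne_zero hq
  -- degree bound
  obtain ⟨N, hN0, hN⟩ : ∃ N : ℕ, 0 < N ∧ ∀ j i, (P j i).natDegree < N := by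
    refine ⟨(Finset.univ.sup fun x : Fin (finrank K V) × ι => (P x.1 x.2).natDegree) + 1,
      Nat.succ_pos _, ?_⟩
    intro j i
    exact Nat.lt_succ_of_le (Finset.le_sup (f := fun x : Fin (finrank K V) × ι =>
      (P x.1 x.2).natDegree) (Finset.mem_univ (j, i)))
  -- the parametrisation
  let pol : (ι × Fin N → K) →ₗ[K] (ι → K[X]) :=
    { toFun := fun c i => ∑ e : Fin N, C (c (i, e)) * X ^ (e : ℕ)
      map_add' := by
        intro c c'
        funext i
        simp [Finset.sum_add_distrib, add_mul]
      map_smul' := by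
        intro r c
        funext i
        simp [Finset.smul_sum, Polynomial.smul_eq_C_mul, mul_assoc] }
  let Θ : (ι × Fin N → K) →ₗ[K] F :=
    { toFun := fun c => (aeval G.t q)⁻¹ * G.comb (pol c)
      map_add' := by
        intro c c'
        simp only [map_add, comb, Pi.add_apply, add_mul, Finset.sum_add_distrib, mul_add]
      map_smul' := by
        intro r c
        simp only [map_smul, comb, Pi.smul_apply, RingHom.id_apply, smul_mul_assoc,
          ← Finset.smul_sum, mul_smul_comm] }
  have hpolcoef : ∀ (c : ι × Fin N → K) (i : ι) (e : Fin N), (pol c i).coeff e = c (i, e) := by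
    intro c i e
    simp only [pol, LinearMap.coe_mk, AddHom.coe_mk, finsetSum_coeff, coeff_C_mul, coeff_X_pow,
      mul_ite, mul_one, mul_zero]
    rw [Finset.sum_eq_single e]
    · simp
    · intro b _ hb
      rw [if_neg]
      intro h; exact hb (Fin.ext h.symm)
    · intro h; exact absurd (Finset.mem_univ _) h
  have hpolex : ∀ P : ι → K[X], (∀ i, (P i).natDegree < N) →
      pol (fun x => (P x.1).coeff x.2) = P := by
    intro P hP
    funext i
    ext e
    by_cases he : e < N
    · have := hpolcoef (fun x => (P x.1).coeff x.2) i ⟨e, he⟩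
      exact this
    · rw [coeff_eq_zero_of_natDegree_lt (lt_of_lt_of_le (hP i) (not_lt.1 he))]
      simp only [pol, LinearMap.coe_mk, AddHom.coe_mk, finsetSum_coeff, coeff_C_mul, coeff_X_pow,
        mul_ite, mul_one, mul_zero]
      refine Finset.sum_eq_zero fun b _ => ?_
      rw [if_neg]
      intro h; exact he (h ▸ b.2)
  let U : Submodule K (ι × Fin N → K) := V.comap Θ
  have hfg := fg_inf_pi A K U
  -- the map from A^M
  let ΘA : (ι × Fin N → A) →ₗ[A] F := (Θ.restrictScalars A) ∘ₗ (Algebra.linearMap A K).compLeft _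
  have himg : Subalgebra.toSubmodule G.W ⊓ V.restrictScalars A =
      (((U.restrictScalars A).comap ((Algebra.linearMap A K).compLeft (ι × Fin N)))).map ΘA := by
    apply le_antisymm
    · rintro x ⟨hxW, hxV⟩
      have hxV' : x ∈ V := hxV
      -- x is Θ of something
      have hx2 : ∃ P : ι → K[X], (∀ i, (P i).natDegree < N) ∧ aeval G.t q * x = G.comb P := by
        have hx3 : (⟨x, hxV'⟩ : V) = ∑ j, b.repr ⟨x, hxV'⟩ j • b j := (b.sum_repr _).symm
        have hx4 : x = ∑ j, b.repr ⟨x, hxV'⟩ j • (b j : F) := by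
          have := congrArg (V.subtype) hx3
          rw [map_sum] at this
          exact this
        refine ⟨fun i => ∑ j, C (b.repr ⟨x, hxV'⟩ j) * P j i, ?_, ?_⟩
        · intro i
          refine lt_of_le_of_lt (natDegree_sum_le _ _) ?_
          rw [Finset.fold_max_lt]
          refine ⟨hN0, fun j _ => ?_⟩
          exact lt_of_le_of_lt (natDegree_C_mul_le _ _) (hN j i)
        · conv_lhs => rw [hx4]
          rw [Finset.mul_sum]
          simp only [mul_smul_comm, hP]
          simp only [comb, map_sum, map_mul, aeval_C, Finset.sum_mul, Finset.mul_sum,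
            Algebra.smul_def]
          rw [Finset.sum_comm]
          refine Finset.sum_congr rfl fun i _ => Finset.sum_congr rfl fun j _ => by ring
      obtain ⟨P', hP'deg, hP'⟩ := hx2
      obtain ⟨Q, hQ⟩ := G.exists_of_mem hk hxW hq hP'
      let c : ι × Fin N → A := fun x => (Q x.1).coeff x.2
      have hc : ((Algebra.linearMap A K).compLeft (ι × Fin N)) c = fun x => (P' x.1).coeff x.2 := by
        funext x
        simp only [LinearMap.compLeft_apply, Function.comp, Algebra.linearMap_apply, c]
        rw [hQ, coeff_map]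
      have hΘc : ΘA c = x := by
        change Θ (((Algebra.linearMap A K).compLeft (ι × Fin N)) c) = x
        rw [hc]
        change (aeval G.t q)⁻¹ * G.comb (pol _) = x
        rw [hpolex P' hP'deg, ← hP', inv_mul_cancel_left₀ hq0]
      refine ⟨c, ?_, hΘc⟩
      change Θ _ ∈ V
      have : Θ (((Algebra.linearMap A K).compLeft (ι × Fin N)) c) = x := hΘc
      rw [this]
      exact hxV
    · rintro _ ⟨c, hc, rfl⟩
      refine ⟨?_, hc⟩
      change Θ (((Algebra.linearMap A K).compLeft (ι × Fin N)) c) ∈ G.W
      have h1 : pol (((Algebra.linearMap A K).compLeft (ι × Fin N)) c) =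
          fun i => (∑ e : Fin N, C (c (i, e)) * X ^ (e : ℕ) : A[X]).map (algebraMap A K) := by
        funext i
        simp [pol, Polynomial.map_sum]
      change (aeval G.t q)⁻¹ * G.comb (pol _) ∈ G.W
      rw [h1, ← coe_combW]
      have h2 : (aeval G.t q)⁻¹ = ((↑u⁻¹ : G.W) : F) := by
        symm
        apply eq_inv_of_mul_eq_one_right
        rw [← G.coe_aeval q, ← hu, ← MulMemClass.coe_mul, Units.mul_inv]; rfl
      rw [h2]
      exact mul_mem (Subtype.prop _) (Subtype.prop _)
  rw [himg]
  exact hfg.map ΘA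

/-- The reduction model attached to Gauss data. -/
noncomputable def toRedModel : RedModel A K F k R where
  W := G.W
  π := G.π
  ker_mem := G.ker_mem hk hspan
  isUnit_of := G.isUnit_of
  scale := G.scale hspan
  fg := fun V _ => G.fg hk hspan V

end GaussData

end Fermat.Agent.Red
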