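import Fermat.Agent.Red.Gauss

/-!
# Reduction of integral elements
-/

set_option autoImplicit false
set_option linter.unusedSectionVars false
set_option linter.style.haveILetI false

namespace Fermat.Agent.Red

open Module Polynomial IntermediateField

variable {A K F k R : Type*} [CommRing A] [IsDomain A] [ValuationRing A]
  [Field K] [Algebra A K] [IsFractionRing A K] [Field F] [Algebra K F] [Algebra A F]
  [IsScalarTower A K F] [Field k] [Algebra A k] [CommRing R] [Algebra k R] [Algebra A R]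
  [IsScalarTower A k R]

namespace GaussData

variable {ι : Type*} [Fintype ι] (G : GaussData A K F k R ι)

/-- An element `p(t)`, `p ∈ K[X]`, of `W` has coefficients in `A`. -/
theorem exists_map_of_aeval_mem [Nontrivial R] (hk : Function.Surjective (algebraMap A k))
    {p : K[X]} (hp : aeval G.t p ∈ G.W) : ∃ P : A[X], p = P.map (algebraMap A K) := by
  by_cases hp0 : p = 0
  · exact ⟨0, by simp [hp0]⟩
  obtain ⟨a, b, ha, hb, Q, hQ, i, e, hie⟩ := exists_primitive A K (fun _ : Unit => p) ⟨(), hp0⟩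
  have hQ0 : (Q ()).map (algebraMap A k) ≠ 0 := by
    intro h
    have h3 := congrArg (fun p => Polynomial.coeff p e) h
    simp only [coeff_map, coeff_zero] at h3
    rw [show (Q ()).coeff e = 1 from hie, map_one] at h3
    exact one_ne_zero h3
  have h1 : a • (⟨aeval G.t p, hp⟩ : G.W) = b • aeval (⟨G.t, G.ht⟩ : G.W) (Q ()) := by
    apply Subtype.ext
    rw [SetLike.val_smul, SetLike.val_smul, coe_aeval]
    change a • aeval G.t p = _
    have := congrArg (aeval G.t) (hQ ())
    simp only [map_mul, aeval_C, aeval_map_K] at this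
    rw [Algebra.smul_def, Algebra.smul_def, IsScalarTower.algebraMap_apply A K F,
      IsScalarTower.algebraMap_apply A K F b, this]
  have hab : a ∣ b := by
    rcases ValuationRing.dvd_total a b with h2 | ⟨c, hc⟩
    · exact h2
    have h3 : c • (⟨aeval G.t p, hp⟩ : G.W) = aeval (⟨G.t, G.ht⟩ : G.W) (Q ()) := by
      rw [hc, mul_smul] at h1
      have hb' : algebraMap A F b ≠ 0 := by
        rw [IsScalarTower.algebraMap_apply A K F]
        simpa using hb
      apply Subtype.ext
      have := congrArg Subtype.val h1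
      have h2 : b • ((c • (⟨aeval G.t p, hp⟩ : G.W) : G.W) : F) =
        b • ((aeval (⟨G.t, G.ht⟩ : G.W) (Q ()) : G.W) : F) := this
      rw [Algebra.smul_def b, Algebra.smul_def b] at h2
      exact mul_left_cancel₀ hb' h2
    by_cases hcu : IsUnit c
    · obtain ⟨u, rfl⟩ := hcu
      exact ⟨↑u⁻¹, by rw [hc, mul_assoc, Units.mul_inv, mul_one]⟩
    · exfalso
      have hc0 : algebraMap A k c = 0 := by
        by_contra h0
        exact hcu (isUnit_of_red_ne_zero hk h0)
      have h4 : G.π (aeval (⟨G.t, G.ht⟩ : G.W) (Q ())) = 0 := by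
        rw [← h3, map_smul, ← algebraMap_smul k c, hc0, zero_smul]
      exact ((G.isUnit_aeval hQ0).map G.π).ne_zero h4
  obtain ⟨c, rfl⟩ := hab
  refine ⟨C c * Q (), ?_⟩
  have h7 := hQ ()
  have ha' : (C (algebraMap A K a) : K[X]) ≠ 0 := by
    rw [Ne, C_eq_zero]; simpa using ha
  apply mul_left_cancel₀ ha'
  rw [h7, Polynomial.map_mul, map_C, map_mul, C_mul, mul_assoc]

theorem aeval_mem (p : A[X]) : aeval G.t p ∈ G.W := by
  rw [← G.coe_aeval]; exact Subtype.prop _

theorem inv_aeval_mem {q : A[X]} (hq : q.map (algebraMap A k) ≠ 0) : (aeval G.t q)⁻¹ ∈ G.W := by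
  obtain ⟨u, hu⟩ := G.isUnit_aeval hq
  have h2 : (aeval G.t q)⁻¹ = ((↑u⁻¹ : G.W) : F) := by
    symm
    apply eq_inv_of_mul_eq_one_right
    rw [← G.coe_aeval q, ← hu, ← MulMemClass.coe_mul, Units.mul_inv]; rfl
  rw [h2]; exact Subtype.prop _

theorem algebraMap_mem_iff [Nontrivial R] (hk : Function.Surjective (algebraMap A k)) {c : K} :
    algebraMap K F c ∈ G.W ↔ ∃ a : A, algebraMap A K a = c := by
  constructor
  · intro h
    obtain ⟨P, hP⟩ := G.exists_map_of_aeval_mem hk (p := C c) (by simpa using h)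
    refine ⟨P.coeff 0, ?_⟩
    have := congrArg (fun p => p.coeff 0) hP
    simpa using this.symm
  · rintro ⟨a, rfl⟩
    rw [← IsScalarTower.algebraMap_apply A K F]
    exact G.W.algebraMap_mem a

variable (K) in
/-- every nonzero `p ∈ K[X]` is `c Q` with `Q` primitive over `A`. -/
theorem exists_primitive_one {p : K[X]} (hp : p ≠ 0) : ∃ c : K, c ≠ 0 ∧ ∃ Q : A[X],
    Q.map (algebraMap A k) ≠ 0 ∧ p = C c * Q.map (algebraMap A K) := by
  obtain ⟨a, b, ha, hb, Q, hQ, i, e, hie⟩ := exists_primitive A K (fun _ : Unit => p) ⟨(), hp⟩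
  have ha' : algebraMap A K a ≠ 0 := by simpa using ha
  have hb' : algebraMap A K b ≠ 0 := by simpa using hb
  refine ⟨algebraMap A K b / algebraMap A K a, div_ne_zero hb' ha', Q (), ?_, ?_⟩
  · intro h
    have h3 := congrArg (fun p => Polynomial.coeff p e) h
    simp only [coeff_map, coeff_zero] at h3
    rw [show (Q ()).coeff e = 1 from hie, map_one] at h3
    exact one_ne_zero h3
  · have h1 : C (algebraMap A K a) * p = C (algebraMap A K a) *
        (C (algebraMap A K b / algebraMap A K a) * (Q ()).map (algebraMap A K)) := by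
      rw [hQ, ← mul_assoc, ← C_mul, mul_div_cancel₀ _ ha']
    exact mul_left_cancel₀ (by rw [Ne, C_eq_zero]; exact ha') h1

/-- The Gauss valuation ring of `K(t)`. -/
def gaussRing : ValuationSubring K⟮G.t⟯ where
  carrier := {e | (e : F) ∈ G.W}
  mul_mem' := fun ha hb => mul_mem (S := Subalgebra A F) ha hb
  one_mem' := one_mem G.W
  add_mem' := fun ha hb => add_mem (S := Subalgebra A F) ha hb
  zero_mem' := zero_mem G.W
  neg_mem' := fun ha => neg_mem (S := Subalgebra A F) ha
  mem_or_inv_mem' := by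
    intro x
    change (x : F) ∈ G.W ∨ ((x⁻¹ : K⟮G.t⟯) : F) ∈ G.W
    rcases eq_or_ne x 0 with rfl | hx
    · left; exact zero_mem G.W
    obtain ⟨p, q, hpq⟩ := (IntermediateField.mem_adjoin_simple_iff K (x : F)).1 x.2
    have hp0 : p ≠ 0 := by
      rintro rfl
      rw [map_zero, zero_div] at hpq
      exact hx (Subtype.ext hpq)
    have hq0 : q ≠ 0 := by
      rintro rfl
      rw [map_zero, div_zero] at hpq
      exact hx (Subtype.ext hpq)
    obtain ⟨c, hc, P, hP, hcP⟩ := exists_primitive_one (A := A) (k := k) K hp0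
    obtain ⟨d, hd, Q, hQ, hdQ⟩ := exists_primitive_one (A := A) (k := k) K hq0
    have hx2 : (x : F) = algebraMap K F (c / d) * (aeval G.t P * (aeval G.t Q)⁻¹) := by
      rw [hpq, hcP, hdQ]
      simp only [map_mul, aeval_C, aeval_map_K, map_div₀]
      field_simp
    have hy : aeval G.t P * (aeval G.t Q)⁻¹ ∈ G.W :=
      mul_mem (G.aeval_mem P) (G.inv_aeval_mem hQ)
    have hy' : (aeval G.t P * (aeval G.t Q)⁻¹)⁻¹ ∈ G.W := by
      rw [mul_inv, inv_inv]
      exact mul_mem (G.inv_aeval_mem hP) (G.aeval_mem Q)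
    rcases ValuationRing.isInteger_or_isInteger A (c / d) with ⟨a, ha⟩ | ⟨a, ha⟩
    · left
      rw [hx2, ← ha, ← IsScalarTower.algebraMap_apply A K F]
      exact mul_mem (G.W.algebraMap_mem a) hy
    · right
      push_cast
      rw [hx2, mul_inv, ← map_inv₀, ← ha, ← IsScalarTower.algebraMap_apply A K F]
      exact mul_mem (G.W.algebraMap_mem a) hy'

theorem mem_gaussRing {x : K⟮G.t⟯} : x ∈ G.gaussRing ↔ (x : F) ∈ G.W := Iff.rfl

variable (hk : Function.Surjective (algebraMap A k))
variable (hspan : ∀ x : F, ∃ q : K[X], q ≠ 0 ∧ ∃ P : ι → K[X], aeval G.t q * x = G.comb P)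

include hk hspan in
theorem isIntegral_gaussRing {x : F} (hx : x ∈ G.W) : IsIntegral G.gaussRing x := by
  classical
  -- `W` as a finitely generated submodule
  let S : Subalgebra G.gaussRing F :=
    { carrier := G.W
      mul_mem' := fun ha hb => mul_mem (S := Subalgebra A F) ha hb
      one_mem' := one_mem G.W
      add_mem' := fun ha hb => add_mem (S := Subalgebra A F) ha hb
      zero_mem' := zero_mem G.W
      algebraMap_mem' := fun r => r.2 }
  have hfg : (Subalgebra.toSubmodule S).FG := by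
    refine ⟨Finset.univ.image G.y, ?_⟩
    apply le_antisymm
    · rw [Submodule.span_le]
      intro z hz
      simp only [Finset.coe_image, Set.mem_image] at hz
      obtain ⟨i, -, rfl⟩ := hz
      exact G.hy i
    · intro z hz
      have hz' : z ∈ G.W := hz
      obtain ⟨q, hq, P, hP⟩ := G.exists_primitive_repr hspan z
      obtain ⟨Q, hQ⟩ := G.exists_of_mem hk hz' hq hP
      have hq0 : aeval G.t q ≠ 0 := G.aeval_ne_zero hq
      have hz2 : z = ∑ i, ((aeval G.t q)⁻¹ * aeval G.t (Q i)) * G.y i := by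
        have h1 : z = (aeval G.t q)⁻¹ * G.comb P := by
          rw [← hP, inv_mul_cancel_left₀ hq0]
        rw [h1, comb, Finset.mul_sum]
        refine Finset.sum_congr rfl fun i _ => ?_
        rw [hQ, aeval_map_K, mul_assoc]
      rw [hz2]
      refine Submodule.sum_mem _ fun i _ => ?_
      have hmem : (aeval G.t q)⁻¹ * aeval G.t (Q i) ∈ K⟮G.t⟯ := by
        have ht : G.t ∈ K⟮G.t⟯ := mem_adjoin_simple_self K G.t
        have h2 : ∀ q : A[X], aeval G.t q ∈ K⟮G.t⟯ := by
          intro q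
          rw [← aeval_map_K, aeval_eq_sum_range]
          refine sum_mem fun i _ => ?_
          rw [Algebra.smul_def]
          exact mul_mem (K⟮G.t⟯.algebraMap_mem _) (pow_mem ht i)
        exact mul_mem (inv_mem (h2 q)) (h2 _)
      have hW : (aeval G.t q)⁻¹ * aeval G.t (Q i) ∈ G.W :=
        mul_mem (G.inv_aeval_mem hq) (G.aeval_mem _)
      let e : G.gaussRing := ⟨⟨_, hmem⟩, hW⟩
      have : ((aeval G.t q)⁻¹ * aeval G.t (Q i)) * G.y i = e • G.y i := rfl
      rw [this]
      refine Submodule.smul_mem _ _ (Submodule.subset_span ?_)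
      simp
  exact IsIntegral.of_mem_of_fg S hfg x hx

include hk hspan in
/-- An element of `W` integral over `K[t]` is integral over `A[t]`. -/
theorem exists_monic [Nontrivial R] (htr : Transcendental K G.t) {x : F} (hx : x ∈ G.W)
    (hint : (aeval G.t : K[X] →ₐ[K] F).toRingHom.IsIntegralElem x) :
    ∃ P : A[X][X], P.Monic ∧ eval₂ (aeval G.t : A[X] →ₐ[A] F).toRingHom x P = 0 := by
  let g : K⟮G.t⟯ := AdjoinSimple.gen K G.t
  letI : Algebra K[X] K⟮G.t⟯ := (aeval g).toRingHom.toAlgebra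
  letI : Algebra K[X] F := (aeval G.t).toRingHom.toAlgebra
  haveI : IsScalarTower K[X] K⟮G.t⟯ F := by
    refine IsScalarTower.of_algebraMap_eq fun p => ?_
    change aeval G.t p = algebraMap K⟮G.t⟯ F (aeval g p)
    rw [← aeval_algebraMap_apply]
    rfl
  haveI : IsFractionRing K[X] K⟮G.t⟯ := by
    let e : RatFunc K ≃ₐ[K[X]] K⟮G.t⟯ :=
      AlgEquiv.ofRingEquiv (f := (RatFunc.algEquivOfTranscendental G.t htr).toRingEquiv)
        (fun p => RatFunc.algEquivOfTranscendental_algebraMap G.t htr p)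
    exact IsLocalization.isLocalization_of_algEquiv (nonZeroDivisors K[X]) e
  have h1 : IsIntegral K[X] x := hint
  have h2 : IsIntegral G.gaussRing x := G.isIntegral_gaussRing hk hspan hx
  have e1 := minpoly.isIntegrallyClosed_eq_field_fractions' K⟮G.t⟯ h1
  have e2 := minpoly.isIntegrallyClosed_eq_field_fractions' K⟮G.t⟯ h2
  let ψ : A[X] →+* K⟮G.t⟯ := (algebraMap K[X] K⟮G.t⟯).comp (mapRingHom (algebraMap A K))
  have hψ : ∀ q : A[X], ((ψ q : K⟮G.t⟯) : F) = aeval G.t q := by
    intro q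
    change algebraMap K⟮G.t⟯ F (algebraMap K[X] K⟮G.t⟯ (q.map (algebraMap A K))) = _
    rw [← IsScalarTower.algebraMap_apply K[X] K⟮G.t⟯ F]
    change aeval G.t (q.map (algebraMap A K)) = _
    rw [aeval_map_K]
  have hlift : minpoly K⟮G.t⟯ x ∈ Polynomial.lifts ψ := by
    rw [Polynomial.lifts_iff_coeff_lifts]
    intro n
    have h3 : ((minpoly K⟮G.t⟯ x).coeff n : F) ∈ G.W := by
      rw [e2, coeff_map]
      exact ((minpoly G.gaussRing x).coeff n).2
    have h4 : ((minpoly K⟮G.t⟯ x).coeff n : F) = aeval G.t ((minpoly K[X] x).coeff n) := by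
      rw [e1, coeff_map]
      change algebraMap K⟮G.t⟯ F (algebraMap K[X] K⟮G.t⟯ _) = _
      rw [← IsScalarTower.algebraMap_apply K[X] K⟮G.t⟯ F]
      rfl
    rw [h4] at h3
    obtain ⟨P, hP⟩ := G.exists_map_of_aeval_mem hk h3
    refine ⟨P, ?_⟩
    apply Subtype.ext
    rw [hψ, h4, hP, aeval_map_K]
  obtain ⟨P, hP1, -, hP2⟩ := Polynomial.lifts_and_degree_eq_and_monic hlift
    (minpoly.monic h1.tower_top)
  refine ⟨P, hP2, ?_⟩
  have h5 : (aeval G.t : A[X] →ₐ[A] F).toRingHom = (algebraMap K⟮G.t⟯ F).comp ψ := by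
    apply RingHom.ext
    intro q
    exact (hψ q).symm
  rw [h5, ← eval₂_map, hP1]
  exact minpoly.aeval _ x

include hk hspan in
/-- Reduction of integral elements. -/
theorem isIntegralElem_π [Nontrivial R] (htr : Transcendental K G.t) {x : F} (hx : x ∈ G.W)
    (hint : (aeval G.t : K[X] →ₐ[K] F).toRingHom.IsIntegralElem x) :
    (aeval (G.π ⟨G.t, G.ht⟩) : k[X] →ₐ[k] R).toRingHom.IsIntegralElem (G.π ⟨x, hx⟩) := by
  obtain ⟨P, hP, hPx⟩ := G.exists_monic hk hspan htr hx hint
  refine ⟨P.map (mapRingHom (algebraMap A k)), hP.map _, ?_⟩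
  rw [eval₂_map]
  have h1 : ((aeval (G.π ⟨G.t, G.ht⟩) : k[X] →ₐ[k] R).toRingHom).comp
      (mapRingHom (algebraMap A k)) = (G.π : G.W →+* R).comp
        (aeval (⟨G.t, G.ht⟩ : G.W) : A[X] →ₐ[A] G.W).toRingHom := by
    apply RingHom.ext
    intro q
    exact (G.π_aeval q).symm
  rw [h1]
  have h2 : eval₂ (aeval (⟨G.t, G.ht⟩ : G.W) : A[X] →ₐ[A] G.W).toRingHom ⟨x, hx⟩ P = 0 := by
    apply Subtype.ext
    have h3 : (G.W.val : G.W →+* F) (eval₂ (aeval (⟨G.t, G.ht⟩ : G.W) : A[X] →ₐ[A] G.W).toRingHom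
        ⟨x, hx⟩ P) = eval₂ (aeval G.t : A[X] →ₐ[A] F).toRingHom x P := by
      rw [hom_eval₂]
      congr 1
      apply RingHom.ext
      intro q
      exact G.coe_aeval q
    exact h3.trans hPx
  have h4 := congrArg (G.π : G.W →+* R) h2
  rw [hom_eval₂, map_zero] at h4
  exact h4

end GaussData

end Fermat.Agent.Red
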