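import Fermat.Agent.Red.Span

/-!
# Gauss data for `t⁻¹`
-/

set_option autoImplicit false
set_option linter.unusedSectionVars false
set_option linter.style.haveILetI false

namespace Fermat.Agent.Red

open Module Polynomial IntermediateField

variable {A K F k R : Type*} [CommRing A] [IsDomain A] [ValuationRing A]
  [Field K] [Algebra A K] [IsFractionRing A K] [Field F] [Algebra K F] [Algebra A F]
  [IsScalarTower A K F] [Field k] [Algebra A k] [CommRing R] [Algebra k R] [Algebra A R]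
  [IsScalarTower A k R]

/-- For units `u`, `u ^ N * p(u⁻¹)` is the value at `u` of the reflected polynomial. -/
theorem pow_mul_aeval_inv {k R : Type*} [CommRing k] [CommRing R] [Algebra k R] (u : Rˣ) (p : k[X])
    {N : ℕ} (hN : p.natDegree ≤ N) :
    (u : R) ^ N * aeval (↑u⁻¹ : R) p = aeval (u : R) (Polynomial.reflect N p) := by
  have h := Polynomial.eval₂_reflect_mul_pow (algebraMap k R) (↑u⁻¹ : R) N p hN
  rw [aeval_def, ← h, mul_comm, mul_assoc, ← mul_pow, Units.inv_mul, one_pow, mul_one]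
  have : (⅟(↑u⁻¹ : R)) = (u : R) := by
    rw [invOf_eq_left_inv (a := (↑u⁻¹ : R)) (b := (u : R)) (by simp)]
  rw [this]; rfl

theorem reflect_ne_zero {k : Type*} [CommRing k] {p : k[X]} (hp : p ≠ 0) (N : ℕ) :
    Polynomial.reflect N p ≠ 0 := by
  rwa [Ne, Polynomial.reflect_eq_zero_iff]

namespace GaussData

variable {ι : Type*} [Fintype ι] (G : GaussData A K F k R ι)

theorem isUnit_πt : IsUnit (G.π ⟨G.t, G.ht⟩) := by
  simpa using G.isUnit_t X X_ne_zero

theorem isUnit_tW : IsUnit (⟨G.t, G.ht⟩ : G.W) := G.isUnit_of _ G.isUnit_πt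

theorem t_ne_zero : G.t ≠ 0 := by
  intro h
  have := G.isUnit_tW.ne_zero
  exact this (Subtype.ext h)

theorem inv_t_mem : G.t⁻¹ ∈ G.W := by
  obtain ⟨u, hu⟩ := G.isUnit_tW
  have h2 : G.t⁻¹ = ((↑u⁻¹ : G.W) : F) := by
    symm
    apply eq_inv_of_mul_eq_one_right
    have : G.t = ((u : G.W) : F) := by rw [hu]
    rw [this, ← MulMemClass.coe_mul, Units.mul_inv]; rfl
  rw [h2]; exact Subtype.prop _

theorem π_inv_t : G.π ⟨G.t, G.ht⟩ * G.π ⟨G.t⁻¹, G.inv_t_mem⟩ = 1 := by
  rw [← map_mul]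
  have : (⟨G.t, G.ht⟩ : G.W) * ⟨G.t⁻¹, G.inv_t_mem⟩ = 1 := by
    apply Subtype.ext
    change G.t * G.t⁻¹ = 1
    rw [mul_inv_cancel₀ G.t_ne_zero]
  rw [this, map_one]

/-- the unit `π t` -/
noncomputable def ut : Rˣ := ⟨G.π ⟨G.t, G.ht⟩, G.π ⟨G.t⁻¹, G.inv_t_mem⟩, G.π_inv_t, by
  rw [mul_comm, G.π_inv_t]⟩

/-- Gauss data with `t` replaced by `t⁻¹`. -/
noncomputable def inv : GaussData A K F k R ι where
  W := G.W
  π := G.π
  t := G.t⁻¹
  ht := G.inv_t_mem
  y := G.y
  hy := G.hy
  isUnit_of := G.isUnit_of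
  indep := by
    intro P hP
    rw [finsum_eq_sum_of_fintype] at hP
    let N := Finset.univ.sup fun i => (P i).natDegree
    have hN : ∀ i, (P i).natDegree ≤ N := fun i =>
      Finset.le_sup (f := fun i => (P i).natDegree) (Finset.mem_univ i)
    have h1 := G.indep (fun i => Polynomial.reflect N (P i)) (by
      rw [finsum_eq_sum_of_fintype]
      have := congrArg (fun x => (G.ut : R) ^ N * x) hP
      rw [mul_zero, Finset.mul_sum] at this
      rw [← this]
      refine Finset.sum_congr rfl fun i _ => ?_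
      rw [← mul_assoc]
      congr 1
      exact (pow_mul_aeval_inv G.ut (P i) (hN i)).symm)
    funext i
    have h2 : Polynomial.reflect N (P i) = 0 := congrFun h1 i
    by_contra h3
    exact reflect_ne_zero h3 N h2
  isUnit_t := by
    intro q hq
    have h1 := G.isUnit_t _ (reflect_ne_zero hq q.natDegree)
    have h2 := pow_mul_aeval_inv G.ut q le_rfl
    have h3 : IsUnit ((G.ut : R) ^ q.natDegree * aeval (↑G.ut⁻¹ : R) q) := by rw [h2]; exact h1
    exact isUnit_of_mul_isUnit_right h3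

@[simp] theorem inv_W : G.inv.W = G.W := rfl

theorem inv_hspan (hspan : ∀ x : F, ∃ q : K[X], q ≠ 0 ∧ ∃ P : ι → K[X], aeval G.t q * x = G.comb P)
    (x : F) : ∃ q : K[X], q ≠ 0 ∧ ∃ P : ι → K[X], aeval G.inv.t q * x = G.inv.comb P := by
  obtain ⟨q, hq, P, hP⟩ := hspan x
  let N := max q.natDegree (Finset.univ.sup fun i => (P i).natDegree)
  have hN : ∀ i, (P i).natDegree ≤ N := fun i =>
    (Finset.le_sup (f := fun i => (P i).natDegree) (Finset.mem_univ i)).trans (le_max_right _ _)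
  have hqN : q.natDegree ≤ N := le_max_left _ _
  refine ⟨Polynomial.reflect N q, reflect_ne_zero hq N, fun i => Polynomial.reflect N (P i), ?_⟩
  let u : Fˣ := Units.mk0 G.inv.t (inv_ne_zero G.t_ne_zero)
  have hu1 : (u : F) = G.inv.t := rfl
  have hu2 : ((u⁻¹ : Fˣ) : F) = G.t := by
    rw [Units.val_inv_eq_inv_val, hu1]
    change (G.t⁻¹)⁻¹ = G.t
    rw [inv_inv]
  have h1 : ∀ p : K[X], p.natDegree ≤ N → aeval G.inv.t (Polynomial.reflect N p) =
      G.inv.t ^ N * aeval G.t p := by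
    intro p hp
    have := pow_mul_aeval_inv u p hp
    rw [hu1, hu2] at this
    exact this.symm
  rw [h1 q hqN, mul_assoc, hP]
  simp only [comb, Finset.mul_sum]
  refine Finset.sum_congr rfl fun i _ => ?_
  rw [h1 (P i) (hN i), mul_assoc]
  rfl

end GaussData

end Fermat.Agent.Red
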