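import Mathlib

/-!
# Reduction models: lattices over valuation rings

`A` valuation ring with fraction field `K` and residue field `k`; `F/K` a field,
`R` a `k`-algebra.  A `RedModel` is an `A`-subalgebra `W` of `F` with a reduction map
`π : W → R` such that every finite dimensional `K`-subspace of `F` meets `W` in a finitely
generated `A`-module.
-/

set_option autoImplicit false
set_option linter.unusedSectionVars false
set_option linter.style.haveILetI false

namespace Fermat.Agent.Red

open Module

variable {A K F k R : Type*} [CommRing A] [IsDomain A] [ValuationRing A]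
  [Field K] [Algebra A K] [IsFractionRing A K] [Field F] [Algebra K F] [Algebra A F]
  [IsScalarTower A K F] [Field k] [Algebra A k] [CommRing R] [Algebra k R] [Algebra A R]
  [IsScalarTower A k R]

/-- finitely generated torsion free modules over a valuation ring are free -/
theorem free_of_torsionFree (A : Type*) [CommRing A] [IsDomain A] [ValuationRing A]
    (M : Type*) [AddCommGroup M] [Module A M] [Module.Finite A M]
    (h : ∀ (a : A) (x : M), a • x = 0 → a = 0 ∨ x = 0) : Module.Free A M := by
  haveI : Module.Flat A M := by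
    rw [Module.Flat.flat_iff_torsion_eq_bot_of_isBezout]
    rw [eq_bot_iff]
    intro x hx
    rw [Submodule.mem_torsion_iff] at hx
    obtain ⟨a, ha⟩ := hx
    rcases h a x ha with h0 | h0
    · exact absurd h0 (nonZeroDivisors.coe_ne_zero a)
    · simpa using h0
  exact Module.free_of_flat_of_isLocalRing

/-- A subspace of `K^M` meets `A^M` in a finitely generated module. -/
theorem fg_inf_pi (A K : Type*) [CommRing A] [IsDomain A] [ValuationRing A]
    [Field K] [Algebra A K] [IsFractionRing A K] {ι : Type*} [Finite ι] (U : Submodule K (ι → K)) :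
    ((U.restrictScalars A).comap
      ((Algebra.linearMap A K).compLeft ι)).FG := by
  classical
  set U' : Submodule A (ι → A) := (U.restrictScalars A).comap ((Algebra.linearMap A K).compLeft ι)
    with hU'
  haveI : Module.Finite A ((ι → A) ⧸ U') := inferInstance
  haveI : Module.Free A ((ι → A) ⧸ U') := by
    refine free_of_torsionFree A _ ?_
    intro a x hax
    obtain ⟨x, rfl⟩ := Submodule.Quotient.mk_surjective U' x
    rw [← Submodule.Quotient.mk_smul, Submodule.Quotient.mk_eq_zero] at hax
    by_cases ha : a = 0
    · exact Or.inl ha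
    right
    rw [Submodule.Quotient.mk_eq_zero]
    rw [hU', Submodule.mem_comap, Submodule.restrictScalars_mem] at hax ⊢
    rw [map_smul] at hax
    have ha' : algebraMap A K a ≠ 0 := by
      simpa using ha
    have := U.smul_mem (algebraMap A K a)⁻¹ hax
    rwa [← algebraMap_smul K a, smul_smul, inv_mul_cancel₀ ha', one_smul] at this
  -- the quotient map splits
  obtain ⟨s, hs⟩ := Module.projective_lifting_property U'.mkQ LinearMap.id
    (Submodule.mkQ_surjective U')
  -- U' is the range of 1 - s ∘ mkQ
  let e : (ι → A) →ₗ[A] (ι → A) := LinearMap.id - s ∘ₗ U'.mkQ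
  have : U' = LinearMap.range e := by
    apply le_antisymm
    · intro x hx
      refine ⟨x, ?_⟩
      have : U'.mkQ x = 0 := by simpa using hx
      simp [e, this]
    · rintro _ ⟨x, rfl⟩
      have h1 : U'.mkQ (e x) = 0 := by
        have := LinearMap.congr_fun hs (U'.mkQ x)
        simp only [LinearMap.comp_apply, LinearMap.id_apply] at this
        simp only [e, LinearMap.sub_apply, LinearMap.id_apply, LinearMap.comp_apply, map_sub, this,
          sub_self]
      simpa using h1
  rw [this]
  rw [LinearMap.range_eq_map]
  exact Submodule.FG.map _ Module.Finite.fg_top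

variable (A K F k R) in
/-- A reduction model. -/
structure RedModel where
  /-- the integral elements -/
  W : Subalgebra A F
  /-- the reduction map -/
  π : W →ₐ[A] R
  ker_mem : ∀ x : W, π x = 0 → ∃ a : A, algebraMap A k a = 0 ∧ ∃ y : W, x = a • y
  isUnit_of : ∀ x : W, IsUnit (π x) → IsUnit x
  scale : ∀ x : F, ∃ a : A, a ≠ 0 ∧ a • x ∈ W
  fg : ∀ V : Submodule K F, FiniteDimensional K V →
    (Subalgebra.toSubmodule W ⊓ V.restrictScalars A).FG

namespace RedModel

variable (M : RedModel A K F k R)

/-- The lattice of integral elements in a subspace. -/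
def lat (V : Submodule K F) : Submodule A F :=
  Subalgebra.toSubmodule M.W ⊓ V.restrictScalars A

theorem mem_lat {V : Submodule K F} {x : F} : x ∈ M.lat V ↔ x ∈ M.W ∧ x ∈ V := Iff.rfl

theorem lat_mono {V V' : Submodule K F} (h : V ≤ V') : M.lat V ≤ M.lat V' :=
  fun _ hx => ⟨hx.1, h hx.2⟩

theorem lat_le_W {V : Submodule K F} {x : F} (h : x ∈ M.lat V) : x ∈ M.W := h.1

instance lat_finite (V : Submodule K F) [FiniteDimensional K V] : Module.Finite A (M.lat V) := by
  have := M.fg V inferInstance
  rwa [← Module.Finite.iff_fg] at this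

include K in
theorem smul_eq_zero_F {a : A} {x : F} (h : a • x = 0) : a = 0 ∨ x = 0 := by
  rw [Algebra.smul_def, mul_eq_zero] at h
  rcases h with h | h
  · left
    rw [IsScalarTower.algebraMap_apply A K F] at h
    have := (map_eq_zero (algebraMap K F)).1 h
    simpa using this
  · exact Or.inr h

instance lat_free (V : Submodule K F) [FiniteDimensional K V] : Module.Free A (M.lat V) := by
  refine free_of_torsionFree A _ ?_
  intro a x h
  have h' : a • (x : F) = 0 := by
    have := congrArg Subtype.val h
    simpa using this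
  rcases smul_eq_zero_F (K := K) h' with h1 | h1
  · exact Or.inl h1
  · right
    exact Subtype.ext h1

theorem smul_mem_iff {V : Submodule K F} {a : A} (ha : a ≠ 0) {x : F} : a • x ∈ V ↔ x ∈ V := by
  have ha' : algebraMap A K a ≠ 0 := by simpa using ha
  rw [← algebraMap_smul K a x]
  exact Submodule.smul_mem_iff V ha'

/-- saturation -/
theorem exists_of_red_eq_zero {V : Submodule K F} {x : F} (hx : x ∈ M.lat V)
    (h0 : M.π ⟨x, hx.1⟩ = 0) :
    ∃ a : A, algebraMap A k a = 0 ∧ ∃ y ∈ M.lat V, x = a • y := by
  obtain ⟨a, ha, y, hy⟩ := M.ker_mem ⟨x, hx.1⟩ h0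
  have hxy : x = a • (y : F) := by
    have := congrArg Subtype.val hy
    simpa using this
  by_cases ha0 : a = 0
  · refine ⟨0, by simp, 0, Submodule.zero_mem _, ?_⟩
    rw [hxy, ha0]; simp
  · refine ⟨a, ha, y, ⟨y.2, ?_⟩, hxy⟩
    have h2 := hx.2
    rw [hxy] at h2
    exact (smul_mem_iff ha0).1 h2

/-- A basis of the lattice is a basis of the space. -/
theorem linearIndependent_K {V : Submodule K F} {ι : Type*} (b : Basis ι A (M.lat V)) :
    LinearIndependent K (fun i => (b i : F)) := by
  rw [← LinearIndependent.iff_fractionRing A K]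
  exact b.linearIndependent.map' (M.lat V).subtype (by simp)

theorem span_K {V : Submodule K F} {ι : Type*} (b : Basis ι A (M.lat V)) :
    Submodule.span K (Set.range (fun i => (b i : F))) = V := by
  apply le_antisymm
  · rw [Submodule.span_le]
    rintro _ ⟨i, rfl⟩
    exact (b i).2.2
  · intro x hx
    obtain ⟨a, ha, hax⟩ := M.scale x
    have hmem : a • x ∈ M.lat V := ⟨hax, (smul_mem_iff ha).2 hx⟩
    have h1 : a • x ∈ Submodule.span K (Set.range (fun i => (b i : F))) := by
      have h2 : (⟨a • x, hmem⟩ : M.lat V) ∈ Submodule.span A (Set.range b) := by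
        rw [b.span_eq]; trivial
      have h3 : a • x ∈ Submodule.span A (Set.range (fun i => (b i : F))) := by
        have := Submodule.mem_map_of_mem (f := (M.lat V).subtype) h2
        rw [Submodule.map_span, ← Set.range_comp] at this
        exact this
      exact (Submodule.span_le_restrictScalars A K _) h3
    exact (smul_mem_iff ha).1 h1

theorem finrank_lat (V : Submodule K F) [FiniteDimensional K V] :
    finrank A (M.lat V) = finrank K V := by
  have b := Module.Free.chooseBasis A (M.lat V)
  rw [Module.finrank_eq_card_basis b]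
  have := Module.finrank_eq_card_basis
    ((Basis.span (M.linearIndependent_K b)).map (LinearEquiv.ofEq _ _ (M.span_K b)))
  rw [this]

/-- The reduction of a subspace. -/
def rd (hk : Function.Surjective (algebraMap A k)) (V : Submodule K F) : Submodule k R where
  carrier := {r | ∃ x : F, ∃ hx : x ∈ M.lat V, M.π ⟨x, hx.1⟩ = r}
  add_mem' := by
    rintro _ _ ⟨x, hx, rfl⟩ ⟨y, hy, rfl⟩
    refine ⟨x + y, add_mem hx hy, ?_⟩
    rw [← map_add]
    rfl
  zero_mem' := ⟨0, Submodule.zero_mem _, by
    have : (⟨0, (Submodule.zero_mem (M.lat V)).1⟩ : M.W) = 0 := rfl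
    rw [this, map_zero]⟩
  smul_mem' := by
    rintro c _ ⟨x, hx, rfl⟩
    obtain ⟨a, rfl⟩ := hk c
    refine ⟨a • x, Submodule.smul_mem _ a hx, ?_⟩
    rw [algebraMap_smul, ← map_smul]
    rfl

variable (hk : Function.Surjective (algebraMap A k))

theorem mem_rd {V : Submodule K F} {r : R} :
    r ∈ M.rd hk V ↔ ∃ x : F, ∃ hx : x ∈ M.lat V, M.π ⟨x, hx.1⟩ = r := Iff.rfl

theorem rd_mono {V V' : Submodule K F} (h : V ≤ V') : M.rd hk V ≤ M.rd hk V' := by
  rintro _ ⟨x, hx, rfl⟩
  exact ⟨x, M.lat_mono h hx, rfl⟩

/-- reduction as a linear map -/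
def redLin (V : Submodule K F) : M.lat V →ₗ[A] R where
  toFun x := M.π ⟨x, x.2.1⟩
  map_add' x y := by rw [← map_add]; rfl
  map_smul' a x := by
    rw [RingHom.id_apply, ← map_smul]; rfl

theorem redLin_apply (V : Submodule K F) (x : M.lat V) : M.redLin V x = M.π ⟨x, x.2.1⟩ := rfl

include hk in
theorem linearIndependent_red {V : Submodule K F} {ι : Type*} (b : Basis ι A (M.lat V)) :
    LinearIndependent k (fun i => M.redLin V (b i)) := by
  classical
  rw [linearIndependent_iff']
  intro s g hg i hi
  choose c hc using fun j => hk (g j)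
  set x : M.lat V := ∑ j ∈ s, c j • b j with hx
  have h1 : M.redLin V x = 0 := by
    rw [hx, map_sum, ← hg]
    refine Finset.sum_congr rfl fun j _ => ?_
    rw [map_smul, ← hc j, algebraMap_smul]
  obtain ⟨a, ha, y, hy, hxy⟩ := M.exists_of_red_eq_zero x.2 h1
  have h2 : x = a • (⟨y, hy⟩ : M.lat V) := Subtype.ext hxy
  have h3 : b.repr x i = c i := by
    rw [hx, map_sum, Finsupp.finsetSum_apply, Finset.sum_eq_single i]
    · simp
    · intro j _ hji
      simp [Finsupp.single_apply, hji]
    · intro h; exact absurd hi h
  have h4 : b.repr x i = a * b.repr (⟨y, hy⟩ : M.lat V) i := by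
    rw [h2, map_smul, Finsupp.smul_apply, smul_eq_mul]
  rw [← hc i, ← h3, h4, map_mul, ha, zero_mul]

theorem span_red {V : Submodule K F} {ι : Type*} (b : Basis ι A (M.lat V)) :
    Submodule.span k (Set.range (fun i => M.redLin V (b i))) = M.rd hk V := by
  apply le_antisymm
  · rw [Submodule.span_le]
    rintro _ ⟨i, rfl⟩
    exact ⟨b i, (b i).2, rfl⟩
  · rintro _ ⟨x, hx, rfl⟩
    have h2 : (⟨x, hx⟩ : M.lat V) ∈ Submodule.span A (Set.range b) := by
      rw [b.span_eq]; trivial
    have h3 := Submodule.mem_map_of_mem (f := M.redLin V) h2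
    rw [Submodule.map_span, ← Set.range_comp] at h3
    exact (Submodule.span_le_restrictScalars A k _) h3

theorem finrank_rd (V : Submodule K F) [FiniteDimensional K V] :
    finrank k (M.rd hk V) = finrank K V := by
  have b := Module.Free.chooseBasis A (M.lat V)
  have := Module.finrank_eq_card_basis
    ((Basis.span (M.linearIndependent_red hk b)).map (LinearEquiv.ofEq _ _ (M.span_red hk b)))
  rw [this, ← M.finrank_lat V, Module.finrank_eq_card_basis b]

instance finiteDimensional_rd (V : Submodule K F) [FiniteDimensional K V] :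
    FiniteDimensional k (M.rd hk V) := by
  have b := Module.Free.chooseBasis A (M.lat V)
  exact Module.Finite.of_basis
    ((Basis.span (M.linearIndependent_red hk b)).map (LinearEquiv.ofEq _ _ (M.span_red hk b)))

end RedModel

end Fermat.Agent.Red
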