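import Fermat.Agent.Red.Approx

/-!
# Abstract rigidity: `m`-th roots lift from the special fibre
-/

set_option autoImplicit false
set_option linter.unusedSectionVars false
set_option linter.style.haveILetI false

namespace Fermat.Agent.Red

open Module

section Poly

open Polynomial

theorem exists_inv_root_poly (A : Type*) [CommRing A] (m : ℕ) (hm : IsUnit (m : A)) (N : ℕ) :
    ∃ B : A[X], B.coeff 0 = 1 ∧ X ^ N ∣ B ^ m * (1 + X) - 1 := by
  rcases Nat.eq_zero_or_pos N with rfl | hN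
  · exact ⟨1, by simp, by simp⟩
  induction N, hN using Nat.le_induction with
  | base => exact ⟨1, by simp, ⟨1, by ring⟩⟩
  | succ N hN ih =>
    obtain ⟨B, hB0, C', hC⟩ := ih
    obtain ⟨u, hu⟩ := hm
    set b : A := -(C'.coeff 0) * (↑u⁻¹ : A) with hb
    obtain ⟨k', hk'⟩ := Polynomial.powAddExpansion B (C b * X ^ N) m
    refine ⟨B + C b * X ^ N, ?_, ?_⟩
    · simp only [coeff_add, hB0, coeff_C_mul, coeff_X_pow]
      rw [if_neg (by omega)]; simp
    · have h1 : (B + C b * X ^ N) ^ m * (1 + X) - 1 =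
          X ^ N * (C' + (m : A[X]) * B ^ (m - 1) * C b * (1 + X)
            + k' * (C b) ^ 2 * X ^ N * (1 + X)) := by
        rw [hk']
        have : B ^ m * (1 + X) - 1 = X ^ N * C' := hC
        linear_combination this
      rw [h1, pow_succ]
      refine mul_dvd_mul_left _ ?_
      rw [X_dvd_iff]
      have hBm : (B ^ (m - 1)).coeff 0 = 1 := by
        rw [coeff_zero_eq_eval_zero, eval_pow, ← coeff_zero_eq_eval_zero, hB0, one_pow]
      have hX : (X ^ N : A[X]).coeff 0 = 0 := by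
        rw [coeff_X_pow, if_neg (by omega)]
      rw [coeff_add, coeff_add, mul_coeff_zero, mul_coeff_zero, mul_coeff_zero, mul_coeff_zero,
        mul_coeff_zero, mul_coeff_zero, hBm, hX]
      simp only [coeff_natCast_ite, if_true, coeff_C_zero, coeff_add, coeff_one_zero, coeff_X_zero,
        mul_zero, zero_mul, add_zero, mul_one]
      rw [hb, ← hu]
      have : (u : A) * (↑u⁻¹ : A) = 1 := by simp
      linear_combination (-(C'.coeff 0)) * this

end Poly

variable {A K F k R : Type*} [CommRing A] [IsDomain A] [ValuationRing A]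
  [Field K] [Algebra A K] [IsFractionRing A K] [Field F] [Algebra K F] [Algebra A F]
  [IsScalarTower A K F] [Field k] [Algebra A k] [CommRing R] [Algebra k R] [Algebra A R]
  [IsScalarTower A k R]

theorem isUnit_of_red_ne_zero (hk : Function.Surjective (algebraMap A k)) {a : A}
    (ha : algebraMap A k a ≠ 0) : IsUnit a := by
  by_contra h
  have h1 : a ∈ IsLocalRing.maximalIdeal A := (IsLocalRing.mem_maximalIdeal a).2 h
  have h2 : RingHom.ker (algebraMap A k) = IsLocalRing.maximalIdeal A := by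
    apply IsLocalRing.eq_maximalIdeal
    exact RingHom.ker_isMaximal_of_surjective _ hk
  rw [← h2] at h1
  exact ha h1

namespace RedModel

variable (M : RedModel A K F k R)

/-- `x ^ m ≡ y ^ m` and `π x = π y` unit implies `x ≡ y`. -/
theorem sub_eq_smul_of_pow {m : ℕ} (hm : (m : k) ≠ 0) {x y : M.W} (hxy : M.π x = M.π y)
    (hy : IsUnit (M.π y)) {c : A} {w : M.W} (h : x ^ m - y ^ m = c • w) :
    ∃ w' : M.W, x - y = c • w' := by
  have h1 : (∑ i ∈ Finset.range m, x ^ i * y ^ (m - 1 - i)) * (x - y) = x ^ m - y ^ m :=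
    Commute.geom_sum₂_mul (Commute.all x y) m
  have h2 : IsUnit (∑ i ∈ Finset.range m, x ^ i * y ^ (m - 1 - i)) := by
    apply M.isUnit_of
    rw [map_sum]
    have : ∀ i ∈ Finset.range m, M.π (x ^ i * y ^ (m - 1 - i)) = (M.π y) ^ (m - 1) := by
      intro i hi
      rw [Finset.mem_range] at hi
      rw [map_mul, map_pow, map_pow, hxy, ← pow_add]
      congr 1; omega
    rw [Finset.sum_congr rfl this, Finset.sum_const, Finset.card_range, nsmul_eq_mul]
    refine IsUnit.mul ?_ (hy.pow _)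
    have : (m : R) = algebraMap k R (m : k) := by simp
    rw [this]
    exact (IsUnit.mk0 _ hm).map _
  obtain ⟨S, hS⟩ := h2
  refine ⟨↑S⁻¹ * w, ?_⟩
  rw [← mul_smul_comm, ← h, ← h1, ← hS, Units.inv_mul_cancel_left]

theorem rigidity_abstract [IsAlgClosed K] (hk : Function.Surjective (algebraMap A k))
    (hA : ∃ t : A, t ≠ 0 ∧ ¬ IsUnit t)
    (hrank : ∀ a c : A, algebraMap A k a = 0 → c ≠ 0 → ∃ n : ℕ, c ∣ a ^ n)
    {m : ℕ} (hm : (m : k) ≠ 0) {f : F} (hf : f ∈ M.W) {g : R} (hg : IsUnit g)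
    (hfg : M.π ⟨f, hf⟩ = g ^ m)
    (L V : ℕ → ℕ → Submodule K F) [∀ a b, FiniteDimensional K (L a b)]
    [∀ a b, FiniteDimensional K (V a b)]
    (hLmono : ∀ {a b a' b'}, a ≤ a' → b ≤ b' → L a b ≤ L a' b')
    (hVmono : ∀ {a b a' b'}, a ≤ a' → b ≤ b' → V a b ≤ V a' b')
    (hLone : (1 : F) ∈ L 0 0)
    (hLL : ∀ {a b c d x y}, x ∈ L a b → y ∈ L c d → x * y ∈ L (a + c) (b + d))
    (hVL : ∀ {a b c d x y}, x ∈ V a b → y ∈ L c d → x * y ∈ V (a + c) (b + d))
    (hVf : ∀ {a b x}, x ∈ V a b → x ^ m * f⁻¹ ∈ L (m * a) (m * b))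
    (Lk : ℕ → ℕ → Submodule k R) (hLkone : ∀ a b, (1 : R) ∈ Lk a b) (n0 : ℕ)
    (hrd : ∀ a b, n0 ≤ a + b → ∀ r : R, r ∈ M.rd hk (V a b) ↔ ∃ s ∈ Lk a b, r = g * s)
    (hsum : ∀ a b, n0 ≤ a → n0 ≤ b → ∀ s ∈ Lk a b, ∃ s1 ∈ Lk a n0, ∃ s2 ∈ Lk n0 b, s = s1 + s2)
    (hinf : ∀ a b, n0 ≤ a → n0 ≤ b → V a n0 ⊓ V n0 b ≤ V n0 n0) :
    ∃ x ∈ V n0 n0, x ^ m = f := by
  -- `f` is a unit of `W`
  have hfu : IsUnit (⟨f, hf⟩ : M.W) := M.isUnit_of _ (by rw [hfg]; exact hg.pow m)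
  obtain ⟨fu, hfu'⟩ := hfu
  have hfinv : ((↑fu⁻¹ : M.W) : F) = f⁻¹ := by
    have h1 : ((↑fu : M.W) : F) * ((↑fu⁻¹ : M.W) : F) = 1 := by
      rw [← MulMemClass.coe_mul, Units.mul_inv]; rfl
    rw [hfu'] at h1
    exact eq_inv_of_mul_eq_one_right h1
  refine M.exists_root_of_approx hA (V n0 n0) m f hf ?_
  intro c hc
  -- step 1
  have h1 : ∀ a b, n0 ≤ a + b → ∃ s : F, ∃ hs : s ∈ M.lat (V a b), M.π ⟨s, hs.1⟩ = g := by
    intro a b hab
    have := (hrd a b hab g).2 ⟨1, hLkone a b, by rw [mul_one]⟩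
    exact this
  -- step 2+3 : for `s ∈ V a b` produce `η`
  have h2 : ∀ a b, n0 ≤ a + b → ∃ N : ℕ, ∃ η : F, ∃ hη : η ∈ M.lat (V (a + m * a * N) (b + m * b * N)),
      M.π ⟨η, hη.1⟩ = g ∧ ∃ w ∈ M.W, η ^ m - f = c • w := by
    intro a b hab
    obtain ⟨s, hs, hsg⟩ := h1 a b hab
    let sW : M.W := ⟨s, hs.1⟩
    let wW : M.W := sW ^ m * ↑fu⁻¹ - 1
    have hwπ : M.π wW = 0 := by
      simp only [wW, sW, map_sub, map_mul, map_pow, hsg, map_one]
      have : g ^ m * M.π (↑fu⁻¹ : M.W) = 1 := by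
        rw [← hfg, ← hfu', ← map_mul, Units.mul_inv, map_one]
      rw [this, sub_self]
    have hwL : (wW : F) ∈ L (m * a) (m * b) := by
      have e : (wW : F) = s ^ m * f⁻¹ - 1 := by
        simp only [wW, sW]
        push_cast
        rw [hfinv]
      rw [e]
      exact sub_mem (hVf hs.2) (hLmono (Nat.zero_le _) (Nat.zero_le _) hLone)
    obtain ⟨c1, hc1, u, hu, hwu⟩ := M.exists_of_red_eq_zero (V := L (m * a) (m * b))
      (x := (wW : F)) ⟨wW.2, hwL⟩ hwπ
    obtain ⟨N, hN⟩ := hrank c1 c hc1 hc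
    have hmA : IsUnit (m : A) := isUnit_of_red_ne_zero hk (by simpa using hm)
    obtain ⟨B, hB0, C', hC'⟩ := exists_inv_root_poly A m hmA N
    -- we use the polynomial truncated at its degree
    let η : M.W := sW * Polynomial.aeval wW B
    have hηπ : M.π η = g := by
      simp only [η, sW, map_mul, hsg]
      have : M.π (Polynomial.aeval wW B) = 1 := by
        rw [← Polynomial.aeval_algHom_apply, hwπ, Polynomial.aeval_def,
          Polynomial.eval₂_at_zero, hB0, map_one]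
      rw [this, mul_one]
    have hpow : ∀ j, ((wW : F)) ^ j ∈ L (m * a * j) (m * b * j) := by
      intro j
      induction j with
      | zero => simpa using hLone
      | succ j ih =>
        rw [pow_succ, Nat.mul_succ, Nat.mul_succ]
        exact hLL ih hwL
    have hηV : ∀ n, B.natDegree ≤ n → (η : F) ∈ V (a + m * a * n) (b + m * b * n) := by
      intro n hn
      have e : (η : F) = s * ∑ j ∈ Finset.range (n + 1), (B.coeff j) • (wW : F) ^ j := by
        simp only [η, sW]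
        push_cast
        congr 1
        rw [Polynomial.aeval_eq_sum_range' (Nat.lt_succ_of_le hn)]
      rw [e]
      refine hVL hs.2 ?_
      refine Submodule.sum_mem _ fun j hj => ?_
      rw [Finset.mem_range] at hj
      rw [← algebraMap_smul K (B.coeff j)]
      refine Submodule.smul_mem _ _ ?_
      exact hLmono (Nat.mul_le_mul_left _ (by omega)) (Nat.mul_le_mul_left _ (by omega)) (hpow j)
    refine ⟨B.natDegree, η, ⟨η.2, hηV _ le_rfl⟩, hηπ, ?_⟩
    -- η ^ m - f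
    have key : η ^ m - (⟨f, hf⟩ : M.W) =
        (⟨f, hf⟩ : M.W) * (wW ^ N * Polynomial.aeval wW C') := by
      have e1 : (Polynomial.aeval wW B) ^ m * (1 + wW) - 1 = wW ^ N * Polynomial.aeval wW C' := by
        have := congrArg (Polynomial.aeval wW) hC'
        simpa using this
      have e2 : sW ^ m = (⟨f, hf⟩ : M.W) * (1 + wW) := by
        simp only [wW]
        rw [← hfu']
        have : (1 + (sW ^ m * (↑fu⁻¹ : M.W) - 1)) = ↑fu⁻¹ * sW ^ m := by ring
        rw [this, Units.mul_inv_cancel_left]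
      simp only [η]
      rw [mul_pow, e2]
      linear_combination (⟨f, hf⟩ : M.W) * e1
    obtain ⟨d, hd⟩ := hN
    have hwW : wW = c1 • (⟨u, hu.1⟩ : M.W) := Subtype.ext hwu
    refine ⟨((⟨f, hf⟩ : M.W) * (d • ((⟨u, hu.1⟩ : M.W) ^ N) * Polynomial.aeval wW C') : M.W),
      Subtype.prop _, ?_⟩
    have := congrArg Subtype.val key
    rw [show ((η ^ m - (⟨f, hf⟩ : M.W) : M.W) : F) = (η : F) ^ m - f from by push_cast; rfl] at this
    rw [this]
    have e3 : (⟨f, hf⟩ : M.W) * (wW ^ N * Polynomial.aeval wW C') =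
        c • ((⟨f, hf⟩ : M.W) * (d • ((⟨u, hu.1⟩ : M.W) ^ N) * Polynomial.aeval wW C')) := by
      rw [show wW ^ N = (c1 ^ N) • (⟨u, hu.1⟩ : M.W) ^ N from by rw [hwW, smul_pow], hd, mul_smul]
      simp only [smul_mul_assoc, mul_smul_comm]
    rw [e3]
    rfl
  obtain ⟨N1, η1, hη1, hη1π, w1, hw1, hw1'⟩ := h2 n0 0 (by omega)
  obtain ⟨N2, η2, hη2, hη2π, w2, hw2, hw2'⟩ := h2 0 n0 (by omega)
  set n1 := n0 + m * n0 * N1 with hn1
  set n2 := n0 + m * n0 * N2 with hn2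
  simp only [mul_zero, zero_mul, add_zero] at hη1 hη2
  -- difference
  obtain ⟨z, hz⟩ := M.sub_eq_smul_of_pow hm (x := ⟨η1, hη1.1⟩) (y := ⟨η2, hη2.1⟩)
    (by rw [hη1π, hη2π]) (by rw [hη2π]; exact hg) (c := c)
    (w := ⟨w1, hw1⟩ - ⟨w2, hw2⟩) (by
      apply Subtype.ext
      simp only [smul_sub]
      push_cast
      rw [← hw1', ← hw2']
      ring)
  have hz' : η1 - η2 = c • (z : F) := by
    have := congrArg Subtype.val hz
    simpa using this
  have hzV : (z : F) ∈ M.lat (V n1 n2) := by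
    refine ⟨z.2, ?_⟩
    change (z : F) ∈ V n1 n2
    rw [← smul_mem_iff (K := K) hc, ← hz']
    exact sub_mem (hVmono le_rfl (Nat.zero_le _) hη1.2) (hVmono (Nat.zero_le _) le_rfl hη2.2)
  -- splitting
  have hn1' : n0 ≤ n1 := by omega
  have hn2' : n0 ≤ n2 := by omega
  have hsplit : M.lat (V n1 n2) ≤ M.lat (V n1 n0) ⊔ M.lat (V n0 n2) := by
    haveI : Module.Finite A (M.lat (V n1 n2)) := inferInstance
    apply Submodule.le_of_le_smul_of_le_jacobson_bot (I := IsLocalRing.maximalIdeal A)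
    · exact M.fg _ inferInstance
    · exact IsLocalRing.maximalIdeal_le_jacobson _
    · intro x hx
      have hx1 : M.π ⟨x, hx.1⟩ ∈ M.rd hk (V n1 n2) := ⟨x, hx, rfl⟩
      rw [hrd _ _ (by omega)] at hx1
      obtain ⟨s, hs, hxs⟩ := hx1
      obtain ⟨s1, hs1, s2, hs2, rfl⟩ := hsum n1 n2 hn1' hn2' s hs
      obtain ⟨x1, hx1, hx1'⟩ := (hrd n1 n0 (by omega) (g * s1)).2 ⟨s1, hs1, rfl⟩
      obtain ⟨x2, hx2, hx2'⟩ := (hrd n0 n2 (by omega) (g * s2)).2 ⟨s2, hs2, rfl⟩
      have hx12 : x1 + x2 ∈ M.lat (V n1 n0) ⊔ M.lat (V n0 n2) :=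
        Submodule.add_mem_sup hx1 hx2
      have hx12' : x1 + x2 ∈ M.lat (V n1 n2) :=
        add_mem (M.lat_mono (hVmono le_rfl hn2') hx1) (M.lat_mono (hVmono hn1' le_rfl) hx2)
      have hx3 : x - (x1 + x2) ∈ M.lat (V n1 n2) := sub_mem hx hx12'
      have hx4 : M.π ⟨x - (x1 + x2), hx3.1⟩ = 0 := by
        have : (⟨x - (x1 + x2), hx3.1⟩ : M.W) = ⟨x, hx.1⟩ - (⟨x1, hx1.1⟩ + ⟨x2, hx2.1⟩) := rfl
        rw [this, map_sub, map_add, hx1', hx2', hxs]
        ring
      obtain ⟨a, ha, y, hy, hxy⟩ := M.exists_of_red_eq_zero hx3 hx4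
      have : x = (x1 + x2) + a • y := by rw [← hxy]; ring
      rw [this]
      refine Submodule.add_mem_sup hx12 ?_
      refine Submodule.smul_mem_smul ?_ hy
      rw [IsLocalRing.mem_maximalIdeal]
      intro hau
      have := hau.map (algebraMap A k)
      rw [ha] at this
      exact not_isUnit_zero this
  obtain ⟨ψ1, hψ1, ψ2, hψ2, hψ⟩ := Submodule.mem_sup.1 (hsplit hzV)
  refine ⟨η1 - c • ψ1, ⟨sub_mem hη1.1 (M.W.smul_mem hψ1.1 c), ?_⟩, ?_⟩
  · apply hinf n1 n2 hn1' hn2'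
    refine ⟨sub_mem (hVmono le_rfl (Nat.zero_le _) hη1.2) ?_, ?_⟩
    · rw [← algebraMap_smul K c]; exact Submodule.smul_mem _ _ hψ1.2
    · have e : η1 - c • ψ1 = η2 + c • ψ2 := by
        have : η1 = η2 + c • (z : F) := by rw [← hz']; ring
        rw [this, ← hψ, smul_add]; ring
      change η1 - c • ψ1 ∈ V n0 n2
      rw [e]
      refine add_mem (hVmono (Nat.zero_le _) le_rfl hη2.2) ?_
      rw [← algebraMap_smul K c]; exact Submodule.smul_mem _ _ hψ2.2
  · -- power estimate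
    obtain ⟨q, hq⟩ : ((⟨η1, hη1.1⟩ : M.W) - c • ⟨ψ1, hψ1.1⟩) - ⟨η1, hη1.1⟩ ∣
        ((⟨η1, hη1.1⟩ : M.W) - c • ⟨ψ1, hψ1.1⟩) ^ m - (⟨η1, hη1.1⟩ : M.W) ^ m :=
      sub_dvd_pow_sub_pow _ _ m
    refine ⟨((-(⟨ψ1, hψ1.1⟩ : M.W)) * q + ⟨w1, hw1⟩ : M.W), Subtype.prop _, ?_⟩
    have hq' := congrArg Subtype.val hq
    push_cast at hq' ⊢
    rw [smul_add, ← hw1']
    have e1 : c • (-ψ1 * (q : F)) = (η1 - c • ψ1 - η1) * (q : F) := by
      rw [Algebra.smul_def, Algebra.smul_def]; ring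
    rw [e1]
    have e2 : (((c • (⟨ψ1, hψ1.1⟩ : M.W) : M.W)) : F) = c • ψ1 := rfl

    linear_combination hq'

end RedModel

end Fermat.Agent.Red
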